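/-
S40 / (E-HOPF), leaf [E2] (helper7; owner of the block: helper28): THE APPROXIMATION CALCULUS.
Pure valuation algebra, Mathlib only.

`K` a field, `A` a valuation subring, `R ⊆ A` a subring of coefficients, `τ : X → ι → K` a family
of coordinate functions on a set `X`, all bounded by `μ x < 1`.  `ApproxTo N φ` : the function
`φ : X → K` agrees to order `μ^N` with ONE polynomial in the coordinates with coefficients in `R`.
The calculus: constants, coordinates, sums, products of integral functions, products of small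
functions gain one order (`ApproxTo.small_mul`), `(1 + small)⁻¹` (`ApproxTo.inv_one_add`,
truncated geometric series), plus the Lipschitz property of polynomial evaluation
(`val_aeval_sub_aeval_le`).
-/
import Mathlib

set_option autoImplicit false
set_option linter.unusedVariables false

namespace Fermat.Agent.S40.E.Approx

variable {K : Type*} [Field K] (A : ValuationSubring K) (R : Subring K) {X ι : Type*}
  (τ : X → ι → K) (μ : X → A.ValueGroup)

/-- `φ` agrees to order `N` with a polynomial in the coordinates `τ`, coefficients in `R` -/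
def ApproxTo (N : ℕ) (φ : X → K) : Prop :=
  ∃ F : MvPolynomial ι K, (∀ m, F.coeff m ∈ R) ∧
    ∀ x, A.valuation (φ x - MvPolynomial.aeval (τ x) F) ≤ μ x ^ N

/-- `φ` is everywhere as small as the coordinates -/
def Small (φ : X → K) : Prop := ∀ x, A.valuation (φ x) ≤ μ x

/-- the standing hypotheses -/
structure Setup : Prop where
  coeff_mem : ∀ r ∈ R, r ∈ A
  coord_le : ∀ x i, A.valuation (τ x i) ≤ μ x
  lt_one : ∀ x, μ x < 1

variable {A R τ μ}

/-! ### polynomials with coefficients in a subring -/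

section Coeffs

variable (R) (ι)

/-- the polynomials all of whose coefficients lie in `R`, as a subring. -/
def coeffsIn : Subring (MvPolynomial ι K) where
  carrier := {F | ∀ m, F.coeff m ∈ R}
  zero_mem' := fun m => by rw [MvPolynomial.coeff_zero]; exact R.zero_mem
  one_mem' := fun m => by
    classical
    rw [MvPolynomial.coeff_one]
    split_ifs
    · exact R.one_mem
    · exact R.zero_mem
  add_mem' := fun {F G} hF hG m => by
    rw [MvPolynomial.coeff_add]; exact R.add_mem (hF m) (hG m)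
  neg_mem' := fun {F} hF m => by
    rw [MvPolynomial.coeff_neg]; exact R.neg_mem (hF m)
  mul_mem' := fun {F G} hF hG m => by
    classical
    rw [MvPolynomial.coeff_mul]
    exact R.sum_mem fun x _ => R.mul_mem (hF x.1) (hG x.2)

variable {R} {ι}

theorem mem_coeffsIn {F : MvPolynomial ι K} : F ∈ coeffsIn R ι ↔ ∀ m, F.coeff m ∈ R := Iff.rfl

theorem C_mem_coeffsIn {r : K} (hr : r ∈ R) : (MvPolynomial.C r : MvPolynomial ι K) ∈ coeffsIn R ι :=
  fun m => by
    classical
    rw [MvPolynomial.coeff_C]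
    split_ifs
    · exact hr
    · exact R.zero_mem

theorem X_mem_coeffsIn (i : ι) : (MvPolynomial.X i : MvPolynomial ι K) ∈ coeffsIn R ι :=
  fun m => by
    classical
    show (MvPolynomial.monomial (Finsupp.single i 1) (1 : K)).coeff m ∈ R
    rw [MvPolynomial.coeff_monomial]
    split_ifs
    · exact R.one_mem
    · exact R.zero_mem

end Coeffs

/-! ### evaluation of integral polynomials -/

theorem aeval_mem (F : MvPolynomial ι K) (hF : ∀ m, F.coeff m ∈ A) (a : ι → K)
    (ha : ∀ i, a i ∈ A) : MvPolynomial.aeval a F ∈ A := by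
  rw [MvPolynomial.aeval_def, MvPolynomial.eval₂_eq]
  refine sum_mem fun d _ => A.mul_mem _ _ (hF d) (prod_mem fun i _ => pow_mem (ha i) _)

/-- products of congruent integral elements are congruent -/
theorem val_mul_sub_mul_le {x x' y y' : K} (hy : y ∈ A) (hx' : x' ∈ A)
    {γ : A.ValueGroup} (hx : A.valuation (x - x') ≤ γ) (hyy : A.valuation (y - y') ≤ γ) :
    A.valuation (x * y - x' * y') ≤ γ := by
  have h : x * y - x' * y' = (x - x') * y + x' * (y - y') := by ring
  rw [h]
  refine Valuation.map_add_le _ ?_ ?_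
  · rw [map_mul]
    calc A.valuation (x - x') * A.valuation y ≤ γ * 1 :=
          mul_le_mul' hx ((A.valuation_le_one_iff y).2 hy)
      _ = γ := mul_one γ
  · rw [map_mul]
    calc A.valuation x' * A.valuation (y - y') ≤ 1 * γ :=
          mul_le_mul' ((A.valuation_le_one_iff x').2 hx') hyy
      _ = γ := one_mul γ

theorem val_pow_sub_pow_le {x x' : K} (hx : x ∈ A) (hx' : x' ∈ A) {γ : A.ValueGroup}
    (h : A.valuation (x - x') ≤ γ) (n : ℕ) : A.valuation (x ^ n - x' ^ n) ≤ γ := by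
  induction n with
  | zero => simp
  | succ n ih =>
    rw [pow_succ, pow_succ]
    exact val_mul_sub_mul_le hx (pow_mem hx' n) ih h

theorem val_prod_sub_prod_le (s : Finset ι) (a b : ι → K) (d : ι → ℕ) (ha : ∀ i, a i ∈ A)
    (hb : ∀ i, b i ∈ A) {γ : A.ValueGroup} (h : ∀ i, A.valuation (a i - b i) ≤ γ) :
    A.valuation (∏ i ∈ s, a i ^ d i - ∏ i ∈ s, b i ^ d i) ≤ γ := by
  classical
  induction s using Finset.induction_on with
  | empty => simp
  | insert i s hi ih =>
    rw [Finset.prod_insert hi, Finset.prod_insert hi]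
    exact val_mul_sub_mul_le (prod_mem fun j _ => pow_mem (ha j) _) (pow_mem (hb i) _)
      (val_pow_sub_pow_le (ha i) (hb i) (h i) (d i)) ih

/-- evaluation of a polynomial with integral coefficients is Lipschitz -/
theorem val_aeval_sub_aeval_le (F : MvPolynomial ι K) (hF : ∀ m, F.coeff m ∈ A) (a b : ι → K)
    (ha : ∀ i, a i ∈ A) (hb : ∀ i, b i ∈ A) (γ : A.ValueGroup)
    (h : ∀ i, A.valuation (a i - b i) ≤ γ) :
    A.valuation (MvPolynomial.aeval a F - MvPolynomial.aeval b F) ≤ γ := by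
  rw [MvPolynomial.aeval_def, MvPolynomial.aeval_def, MvPolynomial.eval₂_eq,
    MvPolynomial.eval₂_eq, ← Finset.sum_sub_distrib]
  refine A.valuation.map_sum_le fun d _ => ?_
  rw [← mul_sub, map_mul]
  calc A.valuation ((algebraMap K K) (F.coeff d)) *
        A.valuation (∏ i ∈ d.support, a i ^ d i - ∏ i ∈ d.support, b i ^ d i) ≤ 1 * γ :=
        mul_le_mul' ((A.valuation_le_one_iff _).2 (hF d))
          (val_prod_sub_prod_le d.support a b d ha hb h)
    _ = γ := one_mul γ

/-! ### small functions -/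

theorem Small.add {φ ψ : X → K} (hφ : Small A μ φ) (hψ : Small A μ ψ) :
    Small A μ (fun x => φ x + ψ x) := fun x =>
  Valuation.map_add_le _ (hφ x) (hψ x)

theorem Small.neg {φ : X → K} (hφ : Small A μ φ) : Small A μ (fun x => -φ x) := fun x => by
  rw [Valuation.map_neg]; exact hφ x

theorem Small.mul_left {φ ψ : X → K} (hφ : ∀ x, φ x ∈ A) (hψ : Small A μ ψ) :
    Small A μ (fun x => φ x * ψ x) := fun x => by
  rw [map_mul]
  calc A.valuation (φ x) * A.valuation (ψ x) ≤ 1 * μ x :=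
        mul_le_mul' ((A.valuation_le_one_iff _).2 (hφ x)) (hψ x)
    _ = μ x := one_mul _

theorem Small.val_lt_one (S : Setup A R τ μ) {φ : X → K} (hφ : Small A μ φ) (x : X) :
    A.valuation (φ x) < 1 := lt_of_le_of_lt (hφ x) (S.lt_one x)

theorem Small.mem (S : Setup A R τ μ) {φ : X → K} (hφ : Small A μ φ) (x : X) : φ x ∈ A :=
  (A.valuation_le_one_iff _).1 (hφ.val_lt_one S x).le

theorem Small.val_one_add (S : Setup A R τ μ) {φ : X → K} (hφ : Small A μ φ) (x : X) :
    A.valuation (1 + φ x) = 1 := Valuation.map_one_add_of_lt _ (hφ.val_lt_one S x)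

theorem Small.one_add_ne_zero (S : Setup A R τ μ) {φ : X → K} (hφ : Small A μ φ) (x : X) :
    1 + φ x ≠ 0 := by
  intro h
  have := hφ.val_one_add S x
  rw [h, map_zero] at this
  exact zero_ne_one this

/-- `(1 + small)⁻¹` is integral, and `(1 + small)⁻¹ - 1` is small -/
theorem Small.inv_one_add_mem (S : Setup A R τ μ) {φ : X → K} (hφ : Small A μ φ) (x : X) :
    (1 + φ x)⁻¹ ∈ A := by
  rw [← A.valuation_le_one_iff, map_inv₀, hφ.val_one_add S x, inv_one]

theorem Small.inv_one_add_sub_one (S : Setup A R τ μ) {φ : X → K} (hφ : Small A μ φ) :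
    Small A μ (fun x => (1 + φ x)⁻¹ - 1) := fun x => by
  have h0 := hφ.one_add_ne_zero S x
  have h : (1 + φ x)⁻¹ - 1 = -(φ x) * (1 + φ x)⁻¹ := by field_simp; ring
  show A.valuation ((1 + φ x)⁻¹ - 1) ≤ μ x
  rw [h, map_mul, Valuation.map_neg, map_inv₀, hφ.val_one_add S x, inv_one, mul_one]
  exact hφ x

/-! ### the calculus -/

theorem Setup.coord_mem (S : Setup A R τ μ) (x : X) (i : ι) : τ x i ∈ A :=
  (A.valuation_le_one_iff _).1 ((S.coord_le x i).trans (S.lt_one x).le)

theorem Setup.aeval_mem (S : Setup A R τ μ) {F : MvPolynomial ι K} (hF : ∀ m, F.coeff m ∈ R)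
    (x : X) : MvPolynomial.aeval (τ x) F ∈ A :=
  Approx.aeval_mem F (fun m => S.coeff_mem _ (hF m)) (τ x) (S.coord_mem x)

theorem Setup.pow_le_pow (S : Setup A R τ μ) (x : X) {N N' : ℕ} (h : N' ≤ N) :
    μ x ^ N ≤ μ x ^ N' :=
  pow_le_pow_right_of_le_one' (S.lt_one x).le h

theorem approxTo_const (S : Setup A R τ μ) {r : K} (hr : r ∈ R) (N : ℕ) :
    ApproxTo A R τ μ N (fun _ => r) := by
  refine ⟨MvPolynomial.C r, C_mem_coeffsIn hr, fun x => ?_⟩
  rw [MvPolynomial.aeval_C]
  simp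

theorem approxTo_coord (S : Setup A R τ μ) (i : ι) (N : ℕ) :
    ApproxTo A R τ μ N (fun x => τ x i) := by
  refine ⟨MvPolynomial.X i, X_mem_coeffsIn i, fun x => ?_⟩
  rw [MvPolynomial.aeval_X]
  simp

theorem ApproxTo.mono (S : Setup A R τ μ) {N N' : ℕ} (h : N' ≤ N) {φ : X → K}
    (hφ : ApproxTo A R τ μ N φ) : ApproxTo A R τ μ N' φ := by
  obtain ⟨F, hF, hFφ⟩ := hφ
  exact ⟨F, hF, fun x => (hFφ x).trans (S.pow_le_pow x h)⟩

theorem ApproxTo.add (S : Setup A R τ μ) {N : ℕ} {φ ψ : X → K}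
    (hφ : ApproxTo A R τ μ N φ) (hψ : ApproxTo A R τ μ N ψ) :
    ApproxTo A R τ μ N (fun x => φ x + ψ x) := by
  obtain ⟨F, hF, hFφ⟩ := hφ
  obtain ⟨G, hG, hGψ⟩ := hψ
  refine ⟨F + G, (coeffsIn R ι).add_mem hF hG, fun x => ?_⟩
  have h : φ x + ψ x - MvPolynomial.aeval (τ x) (F + G) =
      (φ x - MvPolynomial.aeval (τ x) F) + (ψ x - MvPolynomial.aeval (τ x) G) := by
    rw [map_add]; ring
  rw [h]
  exact Valuation.map_add_le _ (hFφ x) (hGψ x)

theorem ApproxTo.neg (S : Setup A R τ μ) {N : ℕ} {φ : X → K}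
    (hφ : ApproxTo A R τ μ N φ) : ApproxTo A R τ μ N (fun x => -φ x) := by
  obtain ⟨F, hF, hFφ⟩ := hφ
  refine ⟨-F, (coeffsIn R ι).neg_mem hF, fun x => ?_⟩
  have h : -φ x - MvPolynomial.aeval (τ x) (-F) = -(φ x - MvPolynomial.aeval (τ x) F) := by
    rw [map_neg]; ring
  rw [h, Valuation.map_neg]
  exact hFφ x

theorem ApproxTo.sub (S : Setup A R τ μ) {N : ℕ} {φ ψ : X → K}
    (hφ : ApproxTo A R τ μ N φ) (hψ : ApproxTo A R τ μ N ψ) :
    ApproxTo A R τ μ N (fun x => φ x - ψ x) := by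
  have h := hφ.add S (hψ.neg S)
  simpa only [sub_eq_add_neg] using h

/-- product of integral functions -/
theorem ApproxTo.mul (S : Setup A R τ μ) {N : ℕ} {φ ψ : X → K}
    (hφA : ∀ x, φ x ∈ A) (hψA : ∀ x, ψ x ∈ A)
    (hφ : ApproxTo A R τ μ N φ) (hψ : ApproxTo A R τ μ N ψ) :
    ApproxTo A R τ μ N (fun x => φ x * ψ x) := by
  obtain ⟨F, hF, hFφ⟩ := hφ
  obtain ⟨G, hG, hGψ⟩ := hψ
  refine ⟨F * G, (coeffsIn R ι).mul_mem hF hG, fun x => ?_⟩
  rw [map_mul]
  exact val_mul_sub_mul_le (hψA x) (S.aeval_mem hF x) (hFφ x) (hGψ x)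

/-- a small function is `0` to order `1` -/
theorem approxTo_one_of_small (S : Setup A R τ μ) {φ : X → K} (hφ : Small A μ φ) :
    ApproxTo A R τ μ 1 φ := by
  refine ⟨0, (coeffsIn R ι).zero_mem, fun x => ?_⟩
  rw [map_zero, sub_zero, pow_one]
  exact hφ x

/-- the approximating polynomial of a small function takes small values (`1 ≤ N`) -/
theorem val_aeval_le_of_small (S : Setup A R τ μ) {N : ℕ} (hN : 1 ≤ N) {φ : X → K}
    (hφs : Small A μ φ) {F : MvPolynomial ι K}
    (hFφ : ∀ x, A.valuation (φ x - MvPolynomial.aeval (τ x) F) ≤ μ x ^ N) (x : X) :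
    A.valuation (MvPolynomial.aeval (τ x) F) ≤ μ x := by
  have h : MvPolynomial.aeval (τ x) F = φ x - (φ x - MvPolynomial.aeval (τ x) F) := by ring
  rw [h]
  refine Valuation.map_sub_le _ (hφs x) ((hFφ x).trans ?_)
  have := S.pow_le_pow x hN
  rwa [pow_one] at this

/-- **the product of two small functions gains one order** -/
theorem ApproxTo.small_mul (S : Setup A R τ μ) {N : ℕ} (hN : 1 ≤ N) {φ ψ : X → K}
    (hφs : Small A μ φ) (hψs : Small A μ ψ)
    (hφ : ApproxTo A R τ μ N φ) (hψ : ApproxTo A R τ μ N ψ) :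
    ApproxTo A R τ μ (N + 1) (fun x => φ x * ψ x) := by
  obtain ⟨F, hF, hFφ⟩ := hφ
  obtain ⟨G, hG, hGψ⟩ := hψ
  refine ⟨F * G, (coeffsIn R ι).mul_mem hF hG, fun x => ?_⟩
  rw [map_mul]
  have h : φ x * ψ x - MvPolynomial.aeval (τ x) F * MvPolynomial.aeval (τ x) G =
      (φ x - MvPolynomial.aeval (τ x) F) * ψ x +
        MvPolynomial.aeval (τ x) F * (ψ x - MvPolynomial.aeval (τ x) G) := by ring
  rw [h]
  refine Valuation.map_add_le _ ?_ ?_
  · rw [map_mul, pow_succ]
    exact mul_le_mul' (hFφ x) (hψs x)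
  · rw [map_mul, pow_succ']
    exact mul_le_mul' (val_aeval_le_of_small S hN hφs hFφ x) (hGψ x)

/-- **geometric series**: `1 + small` is invertible in the calculus -/
theorem ApproxTo.inv_one_add (S : Setup A R τ μ) {N : ℕ} {φ : X → K}
    (hφs : Small A μ φ) (hφ : ApproxTo A R τ μ N φ) :
    ApproxTo A R τ μ N (fun x => (1 + φ x)⁻¹) := by
  obtain ⟨F, hF, hFφ⟩ := hφ
  rcases Nat.eq_zero_or_pos N with hN0 | hN
  · subst hN0
    refine ⟨0, (coeffsIn R ι).zero_mem, fun x => ?_⟩
    rw [map_zero, sub_zero, pow_zero]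
    exact (A.valuation_le_one_iff _).2 (hφs.inv_one_add_mem S x)
  refine ⟨∑ j ∈ Finset.range N, (-F) ^ j,
    (coeffsIn R ι).sum_mem fun j _ => (coeffsIn R ι).pow_mem ((coeffsIn R ι).neg_mem hF) j,
    fun x => ?_⟩
  set f := MvPolynomial.aeval (τ x) F with hf
  have hfs : A.valuation f ≤ μ x := val_aeval_le_of_small S hN hφs hFφ x
  have hf1 : A.valuation f < 1 := lt_of_le_of_lt hfs (S.lt_one x)
  have hw1 : A.valuation (1 + f) = 1 := Valuation.map_one_add_of_lt _ hf1
  have hw0 : 1 + f ≠ 0 := by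
    intro h; rw [h, map_zero] at hw1; exact zero_ne_one hw1
  have hu1 := hφs.val_one_add S x
  have hu0 := hφs.one_add_ne_zero S x
  have hsum : MvPolynomial.aeval (τ x) (∑ j ∈ Finset.range N, (-F) ^ j) =
      ∑ j ∈ Finset.range N, (-f) ^ j := by
    rw [map_sum]
    refine Finset.sum_congr rfl fun j _ => ?_
    rw [map_pow, map_neg]
  have hgeom : (∑ j ∈ Finset.range N, (-f) ^ j) * (1 + f) = 1 - (-f) ^ N := by
    have := geom_sum_mul (-f) N
    linear_combination -this
  have hkey : (1 + φ x)⁻¹ - ∑ j ∈ Finset.range N, (-f) ^ j =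
      (1 + φ x)⁻¹ * (1 + f)⁻¹ * ((f - φ x) + (1 + φ x) * (-f) ^ N) := by
    have h1 : ∑ j ∈ Finset.range N, (-f) ^ j = (1 - (-f) ^ N) * (1 + f)⁻¹ := by
      rw [← hgeom, mul_assoc, mul_inv_cancel₀ hw0, mul_one]
    rw [h1]
    field_simp
    ring
  rw [hsum, hkey, map_mul, map_mul, map_inv₀, map_inv₀, hu1, hw1, inv_one, one_mul, one_mul]
  refine Valuation.map_add_le _ ?_ ?_
  · have : f - φ x = -(φ x - f) := by ring
    rw [this, Valuation.map_neg]
    exact hFφ x
  · rw [map_mul, hu1, one_mul, map_pow, Valuation.map_neg]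
    exact pow_le_pow_left' hfs N

end Fermat.Agent.S40.E.Approx
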