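/-
(E-HOPF), definitions (owner: helper28).  **The `(t, w)`-chart of a Weierstrass curve at the
origin**: `t = -x / y`, `w = -1 / y`, in which the curve is `w = t³ + a₁tw + a₂t²w + a₃w² + a₄tw² +
a₆w³` and the origin is `(0, 0)`; and the chord-and-tangent law in this chart, written with
denominators that are units on the kernel of reduction (`1 - ℬ`, `1 + a₂λ + a₄λ² + a₆λ³`,
`1 - a₁t - a₃w`).

* `tc`, `wc`          : the chart coordinates of a point (junk value `0` at the origin);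
* `cub W t w`         : the right-hand side `f(t, w)` of the chart equation `w = f(t, w)`;
* `numA`, `numB`      : `f(t₁,w₁) - f(t₂,w₂) = (t₁ - t₂)·numA + (w₁ - w₂)·numB`
                        (`numA = ∂f/∂t`, `numB = ∂f/∂w` on the diagonal);
* `lam`, `nu`         : slope `λ = numA / (1 - numB)` and intercept `ν = w₁ - λ t₁` of the line
                        through the two points (tangent if they coincide);
* `thirdT`, `thirdW`  : the third intersection point of that line with the curve;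
* `addT`              : the `t`-coordinate of the sum, `-t₃ / (1 - a₁t₃ - a₃w₃)`.
-/
import Mathlib

set_option autoImplicit false

namespace Fermat.Agent.S40.E.Defs

open WeierstrassCurve WeierstrassCurve.Affine

variable {K : Type*} [Field K]

/-- the chart coordinate `t = -x / y` (`0` at the origin) -/
def tc {W : Affine K} : W.Point → K
  | .zero => 0
  | .some x y _ => -x / y

/-- the chart coordinate `w = -1 / y` (`0` at the origin) -/
def wc {W : Affine K} : W.Point → K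
  | .zero => 0
  | .some _ y _ => -1 / y

@[simp] theorem tc_zero {W : Affine K} : tc (0 : W.Point) = 0 := rfl

@[simp] theorem wc_zero {W : Affine K} : wc (0 : W.Point) = 0 := rfl

@[simp] theorem tc_some {W : Affine K} {x y : K} (h : W.Nonsingular x y) :
    tc (Point.some x y h) = -x / y := rfl

@[simp] theorem wc_some {W : Affine K} {x y : K} (h : W.Nonsingular x y) :
    wc (Point.some x y h) = -1 / y := rfl

variable (W : Affine K)

/-- the chart equation is `w = cub W t w` -/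
def cub (t w : K) : K :=
  t ^ 3 + W.a₁ * t * w + W.a₂ * t ^ 2 * w + W.a₃ * w ^ 2 + W.a₄ * t * w ^ 2 + W.a₆ * w ^ 3

/-- `cub t₁ w₁ - cub t₂ w₂ = (t₁ - t₂) * numA + (w₁ - w₂) * numB` -/
def numA (t₁ t₂ w₂ : K) : K :=
  t₁ ^ 2 + t₁ * t₂ + t₂ ^ 2 + W.a₁ * w₂ + W.a₂ * (t₁ + t₂) * w₂ + W.a₄ * w₂ ^ 2

/-- `cub t₁ w₁ - cub t₂ w₂ = (t₁ - t₂) * numA + (w₁ - w₂) * numB` -/
def numB (t₁ w₁ w₂ : K) : K :=
  W.a₁ * t₁ + W.a₂ * t₁ ^ 2 + (W.a₃ + W.a₄ * t₁) * (w₁ + w₂) +
    W.a₆ * (w₁ ^ 2 + w₁ * w₂ + w₂ ^ 2)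

theorem cub_sub_cub (t₁ w₁ t₂ w₂ : K) :
    cub W t₁ w₁ - cub W t₂ w₂ = (t₁ - t₂) * numA W t₁ t₂ w₂ + (w₁ - w₂) * numB W t₁ w₁ w₂ := by
  simp only [cub, numA, numB]
  ring

/-- the slope of the line through `(t₁, w₁)` and `(t₂, w₂)` (tangent if they coincide) -/
def lam (t₁ w₁ t₂ w₂ : K) : K :=
  numA W t₁ t₂ w₂ / (1 - numB W t₁ w₁ w₂)

/-- the intercept of that line -/
def nu (t₁ w₁ t₂ w₂ : K) : K :=
  w₁ - lam W t₁ w₁ t₂ w₂ * t₁

/-- the `t`-coordinate of the third intersection point, in terms of `λ`, `ν` -/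
def thirdTOf (t₁ t₂ l n : K) : K :=
  -t₁ - t₂ - (W.a₁ * l + W.a₂ * n + W.a₃ * l ^ 2 + 2 * W.a₄ * l * n + 3 * W.a₆ * l ^ 2 * n) /
    (1 + W.a₂ * l + W.a₄ * l ^ 2 + W.a₆ * l ^ 3)

/-- the `t`-coordinate of the third intersection point -/
def thirdT (t₁ w₁ t₂ w₂ : K) : K :=
  thirdTOf W t₁ t₂ (lam W t₁ w₁ t₂ w₂) (nu W t₁ w₁ t₂ w₂)

/-- the `w`-coordinate of the third intersection point -/
def thirdW (t₁ w₁ t₂ w₂ : K) : K :=
  lam W t₁ w₁ t₂ w₂ * thirdT W t₁ w₁ t₂ w₂ + nu W t₁ w₁ t₂ w₂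

/-- the `t`-coordinate of the inverse of the point `(t, w)` -/
def negT (t w : K) : K :=
  -t / (1 - W.a₁ * t - W.a₃ * w)

/-- **the `t`-coordinate of the sum** of the points `(t₁, w₁)` and `(t₂, w₂)` -/
def addT (t₁ w₁ t₂ w₂ : K) : K :=
  negT W (thirdT W t₁ w₁ t₂ w₂) (thirdW W t₁ w₁ t₂ w₂)

end Fermat.Agent.S40.E.Defs
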