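/-
(E-HOPF) [E1] (helper21; owner of the block: helper28, statements of #2874/#2875): **the
`(t, w)`-chart of a Weierstrass curve on the kernel of reduction, and the chord-and-tangent law
in this chart.**

For a Weierstrass curve `W` with coefficients in a valuation subring `A` and points `P, Q` of the
kernel of reduction (`Asm.InE1 A P`: `P = 0` or `x(P) ∉ A`):

* `wc_eq_cub`             : the chart equation `w = cub W t w`;
* `tc_mem_nonunits`       : `t(P)` lies in the maximal ideal;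
* `val_wc_le`             : `v(w(P)) ≤ v(t(P))³`;
* `eq_zero_of_tc_eq_zero` : `t(P) = 0 ⇒ P = 0`;
* `tc_add`                : **`t(P + Q) = addT W (t P) (w P) (t Q) (w Q)`** in all cases
                            (zero, inverse incl. `2`-torsion, tangent, chord).

Method for `tc_add`: Vieta's relations for the three intersection points of the line through `P`
and `Q` (Mathlib's `addPolynomial_slope`) are transported to the chart (`third_of_vieta`); the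
slope `lam` and intercept `nu` of `Defs` are identified with the slope and intercept of that line
in the chart (`lam_nu_of_chord`, `lam_nu_of_tangent`, `lam_nu_of_two_torsion`); vertical lines
(`third_vert_*`) give the zero and inverse cases.
-/
import Mathlib
import Fermat.Agent.S05.KernelGeneral
import Fermat.Agent.S40.E.Defs

set_option autoImplicit false

namespace Fermat.Agent.S40.E.Chart

open WeierstrassCurve WeierstrassCurve.Affine Fermat.Agent.S05 Fermat.Agent.S40.E.Defs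

/-! ## Algebra in the chart (no valuation) -/

section Algebra

variable {K : Type*} [Field K] (W : Affine K)

/-- the chart equation -/
theorem cub_chart {x y : K} (h : W.Equation x y) (hy : y ≠ 0) :
    -1 / y = cub W (-x / y) (-1 / y) := by
  rw [equation_iff] at h
  simp only [cub]
  field_simp
  linear_combination -h

/-- the inverse in the chart -/
theorem negT_chart {x y : K} (hy : y ≠ 0) (hy' : W.negY x y ≠ 0) :
    negT W (-x / y) (-1 / y) = -x / W.negY x y := by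
  simp only [negT, negY] at *
  have h1 : y + W.a₁ * x + W.a₃ ≠ 0 := fun h => hy' (by linear_combination -h)
  have h2 : 1 - W.a₁ * (-x / y) - W.a₃ * (-1 / y) = (y + W.a₁ * x + W.a₃) / y := by
    field_simp
    ring
  rw [h2, show -y - W.a₁ * x - W.a₃ = -(y + W.a₁ * x + W.a₃) by ring]
  field_simp

/-- the leading coefficient of the cubic along the line, via Vieta -/
theorem lead_of_vieta {x₁ x₂ x₃ ℓ c : K} (hc : c ≠ 0)
    (V1 : x₁ + x₂ + x₃ = ℓ ^ 2 + W.a₁ * ℓ - W.a₂)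
    (V2 : x₁ * x₂ + x₁ * x₃ + x₂ * x₃ = W.a₄ - 2 * ℓ * c - W.a₁ * c - W.a₃ * ℓ)
    (V3 : x₁ * x₂ * x₃ = c ^ 2 + W.a₃ * c - W.a₆) :
    1 + W.a₂ * (-ℓ / c) + W.a₄ * (-ℓ / c) ^ 2 + W.a₆ * (-ℓ / c) ^ 3 =
      (ℓ * x₁ + c) * (ℓ * x₂ + c) * (ℓ * x₃ + c) / c ^ 3 := by
  have ha₂ : W.a₂ = ℓ ^ 2 + W.a₁ * ℓ - (x₁ + x₂ + x₃) := by linear_combination V1
  have ha₄ : W.a₄ = x₁ * x₂ + x₁ * x₃ + x₂ * x₃ + 2 * ℓ * c + W.a₁ * c + W.a₃ * ℓ := by
    linear_combination -V2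
  have ha₆ : W.a₆ = c ^ 2 + W.a₃ * c - x₁ * x₂ * x₃ := by linear_combination V3
  rw [ha₂, ha₄, ha₆]
  field_simp
  ring

/-- **the third intersection point in the chart**, from Vieta's relations in the `(x, y)`-chart -/
theorem third_of_vieta {x₁ x₂ x₃ ℓ c : K} (hc : c ≠ 0)
    (hy₁ : ℓ * x₁ + c ≠ 0) (hy₂ : ℓ * x₂ + c ≠ 0) (hy₃ : ℓ * x₃ + c ≠ 0)
    (V1 : x₁ + x₂ + x₃ = ℓ ^ 2 + W.a₁ * ℓ - W.a₂)
    (V2 : x₁ * x₂ + x₁ * x₃ + x₂ * x₃ = W.a₄ - 2 * ℓ * c - W.a₁ * c - W.a₃ * ℓ)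
    (V3 : x₁ * x₂ * x₃ = c ^ 2 + W.a₃ * c - W.a₆) :
    thirdTOf W (-x₁ / (ℓ * x₁ + c)) (-x₂ / (ℓ * x₂ + c)) (-ℓ / c) (-1 / c) =
      -x₃ / (ℓ * x₃ + c) := by
  have hA := lead_of_vieta W hc V1 V2 V3
  have ha₂ : W.a₂ = ℓ ^ 2 + W.a₁ * ℓ - (x₁ + x₂ + x₃) := by linear_combination V1
  have ha₄ : W.a₄ = x₁ * x₂ + x₁ * x₃ + x₂ * x₃ + 2 * ℓ * c + W.a₁ * c + W.a₃ * ℓ := by
    linear_combination -V2
  have ha₆ : W.a₆ = c ^ 2 + W.a₃ * c - x₁ * x₂ * x₃ := by linear_combination V3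
  have hy₁' : x₁ * ℓ + c ≠ 0 := by rwa [mul_comm]
  have hy₂' : x₂ * ℓ + c ≠ 0 := by rwa [mul_comm]
  have hy₃' : x₃ * ℓ + c ≠ 0 := by rwa [mul_comm]
  rw [thirdTOf, hA, ha₂, ha₄, ha₆]
  field_simp
  ring

/-- Vieta's relations for the intersection of the curve with the line through two points
(tangent if they coincide), extracted from Mathlib's `addPolynomial_slope`. -/
theorem vieta_of_slope [DecidableEq K] {x₁ x₂ y₁ y₂ : K} (h₁ : W.Equation x₁ y₁)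
    (h₂ : W.Equation x₂ y₂) (hxy : ¬(x₁ = x₂ ∧ y₁ = W.negY x₂ y₂)) {ℓ c x₃ : K}
    (hℓ : ℓ = W.slope x₁ x₂ y₁ y₂) (hc : c = y₁ - ℓ * x₁) (hx₃ : x₃ = W.addX x₁ x₂ ℓ) :
    x₁ + x₂ + x₃ = ℓ ^ 2 + W.a₁ * ℓ - W.a₂ ∧
    x₁ * x₂ + x₁ * x₃ + x₂ * x₃ = W.a₄ - 2 * ℓ * c - W.a₁ * c - W.a₃ * ℓ ∧
    x₁ * x₂ * x₃ = c ^ 2 + W.a₃ * c - W.a₆ := by
  have h := addPolynomial_slope h₁ h₂ hxy
  rw [addPolynomial_eq, neg_inj, Cubic.prod_X_sub_C_eq, Cubic.toPoly_injective] at h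
  have hb := congrArg Cubic.b h
  have hcc := congrArg Cubic.c h
  have hd := congrArg Cubic.d h
  simp only [← hℓ, ← hx₃] at hb hcc hd
  refine ⟨?_, ?_, ?_⟩
  · rw [hx₃, addX]; ring
  · rw [hc]; linear_combination -hcc
  · rw [hc]; linear_combination hd

/-- `(w₁ - w₂)(1 - ℬ) = (t₁ - t₂) 𝒜` for two points of the chart curve -/
theorem sub_mul_one_sub_numB {t₁ w₁ t₂ w₂ : K} (h₁ : w₁ = cub W t₁ w₁)
    (h₂ : w₂ = cub W t₂ w₂) :
    (w₁ - w₂) * (1 - numB W t₁ w₁ w₂) = (t₁ - t₂) * numA W t₁ t₂ w₂ := by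
  have h := cub_sub_cub W t₁ w₁ t₂ w₂
  rw [← h₁, ← h₂] at h
  linear_combination h

/-- chord: `lam`, `nu` are the slope and intercept of the line through two distinct points -/
theorem lam_nu_of_chord {t₁ w₁ t₂ w₂ l n : K} (h₁ : w₁ = cub W t₁ w₁) (h₂ : w₂ = cub W t₂ w₂)
    (hD : 1 - numB W t₁ w₁ w₂ ≠ 0) (ht : t₁ ≠ t₂)
    (hL₁ : w₁ = l * t₁ + n) (hL₂ : w₂ = l * t₂ + n) :
    lam W t₁ w₁ t₂ w₂ = l ∧ nu W t₁ w₁ t₂ w₂ = n := by
  have hsub := sub_mul_one_sub_numB W h₁ h₂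
  have hl : lam W t₁ w₁ t₂ w₂ = l := by
    rw [lam, div_eq_iff hD]
    apply mul_left_cancel₀ (sub_ne_zero.2 ht)
    linear_combination (-1) * hsub + (1 - numB W t₁ w₁ w₂) * (hL₁ - hL₂)
  refine ⟨hl, ?_⟩
  rw [nu, hl]
  linear_combination hL₁

/-- the leading coefficient along a vertical line -/
theorem lead_vert {x y : K} (h : W.Equation x y) (hx : x ≠ 0) :
    1 + W.a₂ * (1 / x) + W.a₄ * (1 / x) ^ 2 + W.a₆ * (1 / x) ^ 3 =
      y * (-(W.negY x y)) / x ^ 3 := by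
  rw [equation_iff] at h
  simp only [negY]
  field_simp
  linear_combination -h

/-- vertical line through `P` and `-P`: the third point is the origin -/
theorem third_vert_zero {x y : K} (h : W.Equation x y) (hx : x ≠ 0) (hy : y ≠ 0)
    (hy' : W.negY x y ≠ 0) :
    thirdTOf W (-x / y) (-x / W.negY x y) (1 / x) 0 = 0 := by
  rw [thirdTOf, lead_vert W h hx]
  obtain ⟨y', hy'def⟩ : ∃ y', y' = W.negY x y := ⟨_, rfl⟩
  rw [← hy'def] at hy' ⊢
  have ha₃ : W.a₃ = -y - y' - W.a₁ * x := by rw [hy'def, negY]; ring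
  rw [ha₃]
  field_simp
  ring

/-- vertical line through the origin and `P`: the third point is `-P` -/
theorem third_vert_left {x y : K} (h : W.Equation x y) (hx : x ≠ 0) (hy : y ≠ 0)
    (hy' : W.negY x y ≠ 0) :
    thirdTOf W 0 (-x / y) (1 / x) 0 = -x / W.negY x y := by
  rw [thirdTOf, lead_vert W h hx]
  obtain ⟨y', hy'def⟩ : ∃ y', y' = W.negY x y := ⟨_, rfl⟩
  rw [← hy'def] at hy' ⊢
  have ha₃ : W.a₃ = -y - y' - W.a₁ * x := by rw [hy'def, negY]; ring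
  rw [ha₃]
  field_simp
  ring

/-- vertical line through `P` and the origin: the third point is `-P` -/
theorem third_vert_right {x y : K} (h : W.Equation x y) (hx : x ≠ 0) (hy : y ≠ 0)
    (hy' : W.negY x y ≠ 0) :
    thirdTOf W (-x / y) 0 (1 / x) 0 = -x / W.negY x y := by
  rw [thirdTOf, lead_vert W h hx]
  obtain ⟨y', hy'def⟩ : ∃ y', y' = W.negY x y := ⟨_, rfl⟩
  rw [← hy'def] at hy' ⊢
  have ha₃ : W.a₃ = -y - y' - W.a₁ * x := by rw [hy'def, negY]; ring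
  rw [ha₃]
  field_simp
  ring

/-- tangent: the identity behind the tangent slope in the chart -/
theorem numA_mul_eq {x y : K} (h : W.Equation x y) (hy : y ≠ 0) :
    numA W (-x / y) (-x / y) (-1 / y) *
        (y * (2 * y + W.a₁ * x + W.a₃) + x * (W.a₁ * y - (3 * x ^ 2 + 2 * W.a₂ * x + W.a₄))) =
      (W.a₁ * y - (3 * x ^ 2 + 2 * W.a₂ * x + W.a₄)) *
        (1 - numB W (-x / y) (-1 / y) (-1 / y)) := by
  rw [equation_iff] at h
  simp only [numA, numB]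
  field_simp
  linear_combination (-3 * (W.a₁ * y - (3 * x ^ 2 + 2 * W.a₂ * x + W.a₄))) * h

/-- tangent at a point which is not a `2`-torsion point -/
theorem lam_nu_of_tangent {x y ℓ : K} (h : W.Equation x y) (hy : y ≠ 0)
    (hD : 1 - numB W (-x / y) (-1 / y) (-1 / y) ≠ 0) (hFy : y - W.negY x y ≠ 0)
    (hℓ : ℓ = (3 * x ^ 2 + 2 * W.a₂ * x + W.a₄ - W.a₁ * y) / (y - W.negY x y)) :
    y - ℓ * x ≠ 0 ∧ lam W (-x / y) (-1 / y) (-x / y) (-1 / y) = -ℓ / (y - ℓ * x) ∧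
      nu W (-x / y) (-1 / y) (-x / y) (-1 / y) = -1 / (y - ℓ * x) := by
  have key := numA_mul_eq W h hy
  have hFy' : 2 * y + W.a₁ * x + W.a₃ ≠ 0 := by
    intro h0
    apply hFy
    simp only [negY]
    linear_combination h0
  have hℓ' : ℓ * (2 * y + W.a₁ * x + W.a₃) = 3 * x ^ 2 + 2 * W.a₂ * x + W.a₄ - W.a₁ * y := by
    rw [hℓ, show y - W.negY x y = 2 * y + W.a₁ * x + W.a₃ by simp only [negY]; ring]
    exact div_mul_cancel₀ _ hFy'
  have hc : (y - ℓ * x) * (2 * y + W.a₁ * x + W.a₃) =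
      y * (2 * y + W.a₁ * x + W.a₃) + x * (W.a₁ * y - (3 * x ^ 2 + 2 * W.a₂ * x + W.a₄)) := by
    linear_combination (-x) * hℓ'
  have hc0 : y - ℓ * x ≠ 0 := by
    intro h0
    rw [h0, zero_mul] at hc
    rw [← hc, mul_zero] at key
    have hFx : W.a₁ * y - (3 * x ^ 2 + 2 * W.a₂ * x + W.a₄) = 0 := by
      rcases mul_eq_zero.1 key.symm with h1 | h1
      · exact h1
      · exact absurd h1 hD
    rw [hFx, mul_zero, add_zero] at hc
    rcases mul_eq_zero.1 hc.symm with h1 | h1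
    · exact hy h1
    · exact hFy' h1
  have hl : lam W (-x / y) (-1 / y) (-x / y) (-1 / y) = -ℓ / (y - ℓ * x) := by
    rw [lam, div_eq_div_iff hD hc0]
    apply mul_right_cancel₀ hFy'
    rw [← hc] at key
    linear_combination key + (1 - numB W (-x / y) (-1 / y) (-1 / y)) * hℓ'
  refine ⟨hc0, hl, ?_⟩
  rw [nu, hl]
  field_simp
  ring

/-- tangent at a `2`-torsion point: the tangent is the vertical line -/
theorem lam_nu_of_two_torsion {x y : K} (h : W.Nonsingular x y) (hx : x ≠ 0) (hy : y ≠ 0)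
    (hD : 1 - numB W (-x / y) (-1 / y) (-1 / y) ≠ 0) (h2 : y = W.negY x y) :
    lam W (-x / y) (-1 / y) (-x / y) (-1 / y) = 1 / x ∧
      nu W (-x / y) (-1 / y) (-x / y) (-1 / y) = 0 := by
  have key := numA_mul_eq W h.1 hy
  have hFy : 2 * y + W.a₁ * x + W.a₃ = 0 := by
    rw [negY] at h2
    linear_combination h2
  have hFx : W.a₁ * y - (3 * x ^ 2 + 2 * W.a₂ * x + W.a₄) ≠ 0 := by
    rcases h.2 with h3 | h3
    · rwa [evalEval_polynomialX] at h3
    · rw [evalEval_polynomialY] at h3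
      exact absurd hFy h3
  rw [hFy, mul_zero, zero_add] at key
  have hl : lam W (-x / y) (-1 / y) (-x / y) (-1 / y) = 1 / x := by
    rw [lam, div_eq_div_iff hD hx]
    apply mul_left_cancel₀ hFx
    linear_combination key
  refine ⟨hl, ?_⟩
  rw [nu, hl]
  field_simp
  ring

/-- **the sum in the chart**, from Vieta's relations and the identification of `lam`, `nu` -/
theorem addT_of_vieta {x₁ y₁ x₂ y₂ x₃ ℓ c : K} (hc : c ≠ 0) (hy₁ : y₁ ≠ 0) (hy₂ : y₂ ≠ 0)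
    (hL₁ : y₁ = ℓ * x₁ + c) (hL₂ : y₂ = ℓ * x₂ + c) (hy₃ : ℓ * x₃ + c ≠ 0)
    (hy₃' : W.negY x₃ (ℓ * x₃ + c) ≠ 0)
    (V1 : x₁ + x₂ + x₃ = ℓ ^ 2 + W.a₁ * ℓ - W.a₂)
    (V2 : x₁ * x₂ + x₁ * x₃ + x₂ * x₃ = W.a₄ - 2 * ℓ * c - W.a₁ * c - W.a₃ * ℓ)
    (V3 : x₁ * x₂ * x₃ = c ^ 2 + W.a₃ * c - W.a₆)
    (hlam : lam W (-x₁ / y₁) (-1 / y₁) (-x₂ / y₂) (-1 / y₂) = -ℓ / c)
    (hnu : nu W (-x₁ / y₁) (-1 / y₁) (-x₂ / y₂) (-1 / y₂) = -1 / c) :
    addT W (-x₁ / y₁) (-1 / y₁) (-x₂ / y₂) (-1 / y₂) = -x₃ / W.negY x₃ (ℓ * x₃ + c) := by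
  subst hL₁ hL₂
  have hT : thirdT W (-x₁ / (ℓ * x₁ + c)) (-1 / (ℓ * x₁ + c)) (-x₂ / (ℓ * x₂ + c))
      (-1 / (ℓ * x₂ + c)) = -x₃ / (ℓ * x₃ + c) := by
    rw [thirdT, hlam, hnu]
    exact third_of_vieta W hc hy₁ hy₂ hy₃ V1 V2 V3
  have hW3 : thirdW W (-x₁ / (ℓ * x₁ + c)) (-1 / (ℓ * x₁ + c)) (-x₂ / (ℓ * x₂ + c))
      (-1 / (ℓ * x₂ + c)) = -1 / (ℓ * x₃ + c) := by
    rw [thirdW, hT, hlam, hnu]
    field_simp
    ring
  rw [addT, hT, hW3]
  exact negT_chart W hy₃ hy₃'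

/-- the sum in the chart along a vertical line through the origin -/
theorem addT_of_vert {t₁ w₁ t₂ w₂ x y : K} (hx : x ≠ 0) (hy : y ≠ 0) (hy' : W.negY x y ≠ 0)
    (hlam : lam W t₁ w₁ t₂ w₂ = 1 / x) (hnu : nu W t₁ w₁ t₂ w₂ = 0)
    (hT : thirdTOf W t₁ t₂ (1 / x) 0 = -x / W.negY x y) :
    addT W t₁ w₁ t₂ w₂ = -x / y := by
  have hT' : thirdT W t₁ w₁ t₂ w₂ = -x / W.negY x y := by rw [thirdT, hlam, hnu, hT]
  have hW3 : thirdW W t₁ w₁ t₂ w₂ = -1 / W.negY x y := by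
    rw [thirdW, hT', hlam, hnu]
    field_simp
    ring
  rw [addT, hT', hW3, negT_chart W hy' (by rwa [negY_negY]), negY_negY]

end Algebra

/-! ## Valuations on the kernel of reduction -/

section Val

variable {K : Type*} [Field K] (A : ValuationSubring K) {W : Affine K}

theorem nu_add {a b : K} (ha : a ∈ A.nonunits) (hb : b ∈ A.nonunits) : a + b ∈ A.nonunits :=
  lt_of_le_of_lt (A.valuation.map_add _ _) (max_lt ha hb)

theorem nu_neg {a : K} (ha : a ∈ A.nonunits) : -a ∈ A.nonunits := by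
  change A.valuation (-a) < 1
  rw [Valuation.map_neg]
  exact ha

theorem nu_zero : (0 : K) ∈ A.nonunits := by
  change A.valuation 0 < 1
  rw [map_zero]
  exact zero_lt_one

theorem mem_mul_nu {a b : K} (ha : a ∈ A) (hb : b ∈ A.nonunits) : a * b ∈ A.nonunits := by
  change A.valuation (a * b) < 1
  rw [map_mul]
  exact mul_lt_one_of_nonneg_of_lt_one_right ((A.valuation_le_one_iff a).2 ha) zero_le hb

theorem nu_mul_mem {a b : K} (ha : a ∈ A.nonunits) (hb : b ∈ A) : a * b ∈ A.nonunits := by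
  rw [mul_comm]
  exact mem_mul_nu A hb ha

theorem nu_mem {a : K} (ha : a ∈ A.nonunits) : a ∈ A :=
  (A.valuation_le_one_iff a).1 (le_of_lt ha)

theorem nu_pow {a : K} (ha : a ∈ A.nonunits) {n : ℕ} (hn : n ≠ 0) : a ^ n ∈ A.nonunits := by
  obtain ⟨m, rfl⟩ := Nat.exists_eq_succ_of_ne_zero hn
  rw [pow_succ]
  exact mem_mul_nu A (pow_mem (nu_mem A ha) m) ha

theorem one_sub_ne_zero {a : K} (ha : a ∈ A.nonunits) : 1 - a ≠ 0 := by
  intro h
  have h1 : a = 1 := by linear_combination -h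
  rw [h1] at ha
  exact absurd ha (by change ¬ A.valuation 1 < 1; rw [map_one]; exact lt_irrefl _)

theorem val_one_sub {a : K} (ha : a ∈ A.nonunits) : A.valuation (1 - a) = 1 := by
  rw [sub_eq_add_neg]
  have h1 : A.valuation (-a) < 1 := by rw [Valuation.map_neg]; exact ha
  exact A.valuation.map_one_add_of_lt h1

/-- a point of the kernel of reduction has `y / x ∉ A` -/
theorem div_notMem (hW : IntegralAt W A) {x y : K} (h : W.Equation x y) (hx : x ∉ A) :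
    y / x ∉ A := by
  intro hs
  have hx0 : x ≠ 0 := fun h0 => hx (h0 ▸ A.zero_mem)
  have hu : x⁻¹ ∈ A := (A.mem_or_inv_mem x).resolve_left hx
  rw [equation_iff] at h
  apply hx
  have e : x = (y / x) ^ 2 + W.a₁ * (y / x) + W.a₃ * x⁻¹ * (y / x) - W.a₂ - W.a₄ * x⁻¹ -
      W.a₆ * x⁻¹ ^ 2 := by
    field_simp
    linear_combination -h
  rw [e]
  exact sub_mem (sub_mem (sub_mem (add_mem (add_mem (pow_mem hs 2) (mul_mem hW.a₁ hs))
    (mul_mem (mul_mem hW.a₃ hu) hs)) hW.a₂) (mul_mem hW.a₄ hu)) (mul_mem hW.a₆ (pow_mem hu 2))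

/-- the basic facts about the chart coordinates of a point of the kernel of reduction -/
theorem chart_facts (hW : IntegralAt W A) {x y : K} (h : W.Equation x y) (hx : x ∉ A) :
    x ≠ 0 ∧ y ≠ 0 ∧ -x / y ∈ A.nonunits ∧ -1 / y ∈ A.nonunits ∧
      A.valuation (-1 / y) = A.valuation (-x / y) ^ 3 := by
  have hx0 : x ≠ 0 := fun h0 => hx (h0 ▸ A.zero_mem)
  have hs := div_notMem A hW h hx
  have hy0 : y ≠ 0 := fun h0 => hs (by rw [h0, zero_div]; exact A.zero_mem)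
  have hu : x⁻¹ ∈ A := (A.mem_or_inv_mem x).resolve_left hx
  have ht : -x / y ∈ A.nonunits := by
    have h1 : ¬ A.valuation (y / x) ≤ 1 := fun h1 => hs ((A.valuation_le_one_iff _).1 h1)
    have h2 : A.valuation (-x / y) = (A.valuation (y / x))⁻¹ := by
      rw [← map_inv₀, inv_div, neg_div, Valuation.map_neg]
    change A.valuation (-x / y) < 1
    rw [h2]
    exact inv_lt_one_of_one_lt₀ (lt_of_not_ge h1)
  have hw : -1 / y ∈ A.nonunits := by
    have : -1 / y = -x / y * x⁻¹ := by field_simp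
    rw [this]
    exact nu_mul_mem A ht hu
  refine ⟨hx0, hy0, ht, hw, ?_⟩
  have key : -1 / y * (1 - (W.a₁ * (-x / y) + W.a₃ * (-1 / y))) =
      (-x / y) ^ 3 * (1 - (-(W.a₂ * x⁻¹ + W.a₄ * x⁻¹ ^ 2 + W.a₆ * x⁻¹ ^ 3))) := by
    rw [equation_iff] at h
    field_simp
    linear_combination -h
  have hux : x⁻¹ ∈ A.nonunits := by
    change A.valuation x⁻¹ < 1
    rw [map_inv₀]
    exact inv_lt_one_of_one_lt₀ (lt_of_not_ge fun h1 => hx ((A.valuation_le_one_iff _).1 h1))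
  have v1 : A.valuation (1 - (W.a₁ * (-x / y) + W.a₃ * (-1 / y))) = 1 :=
    val_one_sub A (nu_add A (mem_mul_nu A hW.a₁ ht) (mem_mul_nu A hW.a₃ hw))
  have v2 : A.valuation (1 - (-(W.a₂ * x⁻¹ + W.a₄ * x⁻¹ ^ 2 + W.a₆ * x⁻¹ ^ 3))) = 1 :=
    val_one_sub A (nu_neg A (nu_add A (nu_add A (mem_mul_nu A hW.a₂ hux)
      (mem_mul_nu A hW.a₄ (nu_pow A hux two_ne_zero)))
      (mem_mul_nu A hW.a₆ (nu_pow A hux three_ne_zero))))
  have := congrArg A.valuation key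
  rw [map_mul, map_mul, v1, v2, mul_one, mul_one, map_pow] at this
  exact this

/-- `numB` lies in the maximal ideal on the kernel of reduction -/
theorem numB_mem (hW : IntegralAt W A) {t w₁ w₂ : K} (ht : t ∈ A.nonunits)
    (hw₁ : w₁ ∈ A.nonunits) (hw₂ : w₂ ∈ A.nonunits) : numB W t w₁ w₂ ∈ A.nonunits := by
  rw [numB]
  refine nu_add A (nu_add A (nu_add A (mem_mul_nu A hW.a₁ ht)
    (mem_mul_nu A hW.a₂ (nu_pow A ht two_ne_zero))) ?_) ?_
  · exact mem_mul_nu A (add_mem hW.a₃ (mul_mem hW.a₄ (nu_mem A ht))) (nu_add A hw₁ hw₂)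
  · exact mem_mul_nu A hW.a₆ (nu_add A (nu_add A (nu_pow A hw₁ two_ne_zero)
      (mem_mul_nu A (nu_mem A hw₁) hw₂)) (nu_pow A hw₂ two_ne_zero))

/-- the denominator `1 - ℬ` of the slope is nonzero on the kernel of reduction -/
theorem one_sub_numB_ne_zero (hW : IntegralAt W A) {t w₁ w₂ : K} (ht : t ∈ A.nonunits)
    (hw₁ : w₁ ∈ A.nonunits) (hw₂ : w₂ ∈ A.nonunits) : 1 - numB W t w₁ w₂ ≠ 0 :=
  one_sub_ne_zero A (numB_mem A hW ht hw₁ hw₂)

end Val

/-! ## The chart on the kernel of reduction -/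

section Main

variable {K : Type*} [Field K] [DecidableEq K] (A : ValuationSubring K) {W : Affine K}

omit [DecidableEq K] in
/-- the chart equation on the kernel of reduction -/
theorem wc_eq_cub (hW : IntegralAt W A) {P : W.Point} (hP : Asm.InE1 A P) :
    wc P = cub W (tc P) (wc P) := by
  rcases hP with rfl | ⟨x, y, h, rfl, hx⟩
  · simp [cub]
  · obtain ⟨-, hy0, -⟩ := chart_facts A hW h.1 hx
    exact cub_chart W h.1 hy0

omit [DecidableEq K] in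
/-- `t(P)` lies in the maximal ideal -/
theorem tc_mem_nonunits (hW : IntegralAt W A) {P : W.Point} (hP : Asm.InE1 A P) :
    tc P ∈ A.nonunits := by
  rcases hP with rfl | ⟨x, y, h, rfl, hx⟩
  · exact nu_zero A
  · exact (chart_facts A hW h.1 hx).2.2.1

omit [DecidableEq K] in
/-- `v(w(P)) ≤ v(t(P))³` -/
theorem val_wc_le (hW : IntegralAt W A) {P : W.Point} (hP : Asm.InE1 A P) :
    A.valuation (wc P) ≤ A.valuation (tc P) ^ 3 := by
  rcases hP with rfl | ⟨x, y, h, rfl, hx⟩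
  · simp
  · exact le_of_eq (chart_facts A hW h.1 hx).2.2.2.2

omit [DecidableEq K] in
/-- `t` separates the origin from the other points of the kernel of reduction -/
theorem eq_zero_of_tc_eq_zero (hW : IntegralAt W A) {P : W.Point} (hP : Asm.InE1 A P)
    (h : tc P = 0) : P = 0 := by
  rcases hP with rfl | ⟨x, y, hxy, rfl, hx⟩
  · rfl
  · exfalso
    obtain ⟨hx0, hy0, -⟩ := chart_facts A hW hxy.1 hx
    rw [tc_some, div_eq_zero_iff] at h
    rcases h with h | h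
    · exact hx0 (neg_eq_zero.1 h)
    · exact hy0 h

omit [DecidableEq K] in
/-- zero on the left -/
theorem addT_zero_left (hW : IntegralAt W A) {x y : K} (h : W.Nonsingular x y) (hx : x ∉ A) :
    addT W 0 0 (-x / y) (-1 / y) = -x / y := by
  obtain ⟨hx0, hy0, ht, hw, -⟩ := chart_facts A hW h.1 hx
  obtain ⟨-, hy0', -⟩ := chart_facts A hW ((equation_neg x y).2 h.1) hx
  have hD := one_sub_numB_ne_zero A hW (nu_zero A) (nu_zero A) hw
  have ht0 : (0 : K) ≠ -x / y := by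
    intro h0
    rcases div_eq_zero_iff.1 h0.symm with h1 | h1
    · exact hx0 (neg_eq_zero.1 h1)
    · exact hy0 h1
  obtain ⟨hlam, hnu⟩ := lam_nu_of_chord W (l := 1 / x) (n := 0) (by simp [cub])
    (cub_chart W h.1 hy0) hD ht0 (by ring) (by field_simp; ring)
  exact addT_of_vert W hx0 hy0 hy0' hlam hnu (third_vert_left W h.1 hx0 hy0 hy0')

omit [DecidableEq K] in
/-- zero on the right -/
theorem addT_zero_right (hW : IntegralAt W A) {x y : K} (h : W.Nonsingular x y) (hx : x ∉ A) :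
    addT W (-x / y) (-1 / y) 0 0 = -x / y := by
  obtain ⟨hx0, hy0, ht, hw, -⟩ := chart_facts A hW h.1 hx
  obtain ⟨-, hy0', -⟩ := chart_facts A hW ((equation_neg x y).2 h.1) hx
  have hD := one_sub_numB_ne_zero A hW ht hw (nu_zero A)
  have ht0 : -x / y ≠ (0 : K) := by
    intro h0
    rcases div_eq_zero_iff.1 h0 with h1 | h1
    · exact hx0 (neg_eq_zero.1 h1)
    · exact hy0 h1
  obtain ⟨hlam, hnu⟩ := lam_nu_of_chord W (l := 1 / x) (n := 0) (cub_chart W h.1 hy0)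
    (by simp [cub]) hD ht0 (by field_simp; ring) (by ring)
  exact addT_of_vert W hx0 hy0 hy0' hlam hnu (third_vert_right W h.1 hx0 hy0 hy0')

omit [DecidableEq K] in
/-- the inverse case: `P + (-P) = 0` in the chart -/
theorem addT_inverse (hW : IntegralAt W A) {x y₁ y₂ : K} (h₁ : W.Nonsingular x y₁)
    (h₂ : W.Nonsingular x y₂) (hx : x ∉ A) (hy : y₁ = W.negY x y₂) :
    addT W (-x / y₁) (-1 / y₁) (-x / y₂) (-1 / y₂) = 0 := by
  obtain ⟨hx0, hy₁0, ht₁, hw₁, -⟩ := chart_facts A hW h₁.1 hx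
  obtain ⟨-, hy₂0, ht₂, hw₂, -⟩ := chart_facts A hW h₂.1 hx
  have hD := one_sub_numB_ne_zero A hW ht₁ hw₁ hw₂
  have hy₂ : W.negY x y₁ = y₂ := by rw [hy, negY_negY]
  have hln : lam W (-x / y₁) (-1 / y₁) (-x / y₂) (-1 / y₂) = 1 / x ∧
      nu W (-x / y₁) (-1 / y₁) (-x / y₂) (-1 / y₂) = 0 := by
    by_cases hyy : y₁ = y₂
    · subst hyy
      exact lam_nu_of_two_torsion W h₁ hx0 hy₁0 hD hy
    · have ht : -x / y₁ ≠ -x / y₂ := by
        intro h0
        apply hyy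
        field_simp at h0
        exact (neg_inj.1 h0).symm
      exact lam_nu_of_chord W (l := 1 / x) (n := 0) (cub_chart W h₁.1 hy₁0)
        (cub_chart W h₂.1 hy₂0) hD ht (by field_simp; ring) (by field_simp; ring)
  have hT : thirdT W (-x / y₁) (-1 / y₁) (-x / y₂) (-1 / y₂) = 0 := by
    rw [thirdT, hln.1, hln.2]
    have := third_vert_zero W h₁.1 hx0 hy₁0 (by rw [hy₂]; exact hy₂0)
    rwa [hy₂] at this
  rw [addT, thirdW, hT, hln.2]
  simp [negT]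

/-- the generic case: `P + Q ≠ 0` in the chart -/
theorem addT_generic (hW : IntegralAt W A) {x₁ y₁ x₂ y₂ : K} (h₁ : W.Nonsingular x₁ y₁)
    (h₂ : W.Nonsingular x₂ y₂) (hx₁ : x₁ ∉ A) (hx₂ : x₂ ∉ A)
    (hxy : ¬(x₁ = x₂ ∧ y₁ = W.negY x₂ y₂))
    (hx₃ : W.addX x₁ x₂ (W.slope x₁ x₂ y₁ y₂) ∉ A) :
    addT W (-x₁ / y₁) (-1 / y₁) (-x₂ / y₂) (-1 / y₂) =
      -W.addX x₁ x₂ (W.slope x₁ x₂ y₁ y₂) / W.addY x₁ x₂ y₁ (W.slope x₁ x₂ y₁ y₂) := by
  obtain ⟨hx₁0, hy₁0, ht₁, hw₁, -⟩ := chart_facts A hW h₁.1 hx₁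
  obtain ⟨hx₂0, hy₂0, ht₂, hw₂, -⟩ := chart_facts A hW h₂.1 hx₂
  have hD := one_sub_numB_ne_zero A hW ht₁ hw₁ hw₂
  obtain ⟨ℓ, hℓ⟩ : ∃ ℓ, ℓ = W.slope x₁ x₂ y₁ y₂ := ⟨_, rfl⟩
  obtain ⟨c, hc⟩ : ∃ c, c = y₁ - ℓ * x₁ := ⟨_, rfl⟩
  obtain ⟨x₃, hx₃def⟩ : ∃ x₃, x₃ = W.addX x₁ x₂ ℓ := ⟨_, rfl⟩
  obtain ⟨V1, V2, V3⟩ := vieta_of_slope W h₁.1 h₂.1 hxy hℓ hc hx₃def
  have hneg : W.negAddY x₁ x₂ y₁ ℓ = ℓ * x₃ + c := by rw [negAddY, ← hx₃def, hc]; ring
  have hy₃ : ℓ * x₃ + c ≠ 0 := by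
    have := equation_negAdd h₁.1 h₂.1 hxy
    rw [← hℓ, ← hx₃def, hneg] at this
    exact (chart_facts A hW this (by rw [hx₃def, hℓ]; exact hx₃)).2.1
  have hy₃' : W.negY x₃ (ℓ * x₃ + c) ≠ 0 := by
    have := equation_add h₁.1 h₂.1 hxy
    rw [addY, ← hℓ, ← hx₃def, hneg] at this
    exact (chart_facts A hW this (by rw [hx₃def, hℓ]; exact hx₃)).2.1
  have hL₁ : y₁ = ℓ * x₁ + c := by rw [hc]; ring
  have key : c ≠ 0 ∧ y₂ = ℓ * x₂ + c ∧
      lam W (-x₁ / y₁) (-1 / y₁) (-x₂ / y₂) (-1 / y₂) = -ℓ / c ∧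
      nu W (-x₁ / y₁) (-1 / y₁) (-x₂ / y₂) (-1 / y₂) = -1 / c := by
    by_cases hxx : x₁ = x₂
    · -- tangent
      have hyne : y₁ ≠ W.negY x₂ y₂ := fun h0 => hxy ⟨hxx, h0⟩
      have hyy : y₁ = y₂ := Y_eq_of_Y_ne h₁.1 h₂.1 hxx hyne
      subst hxx hyy
      have hℓ' : ℓ = (3 * x₁ ^ 2 + 2 * W.a₂ * x₁ + W.a₄ - W.a₁ * y₁) / (y₁ - W.negY x₁ y₁) := by
        rw [hℓ, slope_of_Y_ne rfl hyne]
      obtain ⟨hc0, hl, hn⟩ := lam_nu_of_tangent W h₁.1 hy₁0 hD (sub_ne_zero.2 hyne) hℓ'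
      rw [← hc] at hc0 hl hn
      exact ⟨hc0, hL₁, hl, hn⟩
    · -- chord
      have hℓ' : ℓ = (y₁ - y₂) / (x₁ - x₂) := by rw [hℓ, slope_of_X_ne hxx]
      have hxx' : x₁ - x₂ ≠ 0 := sub_ne_zero.2 hxx
      have hL₂ : y₂ = ℓ * x₂ + c := by
        rw [hc, hℓ']
        field_simp
        ring
      have ht : -x₁ / y₁ ≠ -x₂ / y₂ := by
        intro h0
        have hsub := sub_mul_one_sub_numB W (cub_chart W h₁.1 hy₁0) (cub_chart W h₂.1 hy₂0)
        rw [sub_eq_zero.2 h0, zero_mul] at hsub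
        have hww : -1 / y₁ = -1 / y₂ := by
          rcases mul_eq_zero.1 hsub with h1 | h1
          · exact sub_eq_zero.1 h1
          · exact absurd h1 hD
        have hyy : y₁ = y₂ := by
          field_simp at hww
          exact (neg_inj.1 hww).symm
        apply hxx
        rw [hyy] at h0
        field_simp at h0
        exact neg_inj.1 h0
      have hℓt₁ : ℓ * (-x₁ / y₁) + c * (-1 / y₁) = -1 := by
        field_simp
        linear_combination hL₁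
      have hℓt₂ : ℓ * (-x₂ / y₂) + c * (-1 / y₂) = -1 := by
        field_simp
        linear_combination hL₂
      have hc0 : c ≠ 0 := by
        intro h0
        rw [h0, zero_mul, add_zero] at hℓt₁ hℓt₂
        have h3 : ℓ * (-x₁ / y₁ - -x₂ / y₂) = 0 := by linear_combination hℓt₁ - hℓt₂
        rcases mul_eq_zero.1 h3 with h4 | h4
        · rw [h4, zero_mul] at hℓt₁
          exact absurd hℓt₁ (by norm_num)
        · exact ht (sub_eq_zero.1 h4)
      obtain ⟨hl, hn⟩ := lam_nu_of_chord W (l := -ℓ / c) (n := -1 / c)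
        (cub_chart W h₁.1 hy₁0) (cub_chart W h₂.1 hy₂0) hD ht
        (by field_simp; linear_combination hL₁) (by field_simp; linear_combination hL₂)
      exact ⟨hc0, hL₂, hl, hn⟩
  obtain ⟨hc0, hL₂, hl, hn⟩ := key
  have := addT_of_vieta W hc0 hy₁0 hy₂0 hL₁ hL₂ hy₃ hy₃' V1 V2 V3 hl hn
  rw [this, addY, ← hℓ, ← hx₃def, hneg]

/-- **the addition law in the chart**: `t(P + Q) = addT W (t P) (w P) (t Q) (w Q)` on the kernel
of reduction -/
theorem tc_add (hW : IntegralAt W A) {P Q : W.Point} (hP : Asm.InE1 A P) (hQ : Asm.InE1 A Q) :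
    tc (P + Q) = addT W (tc P) (wc P) (tc Q) (wc Q) := by
  have hPQ := KernelGeneral.inE1_add A hW P Q hP hQ
  rcases hP with rfl | ⟨x₁, y₁, h₁, rfl, hx₁⟩
  · rcases hQ with rfl | ⟨x₂, y₂, h₂, rfl, hx₂⟩
    · simp [addT, negT, thirdT, thirdW, thirdTOf, lam, nu, numA, numB]
    · rw [zero_add, tc_zero, wc_zero, tc_some, wc_some]
      exact (addT_zero_left A hW h₂ hx₂).symm
  · rcases hQ with rfl | ⟨x₂, y₂, h₂, rfl, hx₂⟩
    · rw [add_zero, tc_zero, wc_zero, tc_some, wc_some]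
      exact (addT_zero_right A hW h₁ hx₁).symm
    · simp only [tc_some, wc_some]
      by_cases hxy : x₁ = x₂ ∧ y₁ = W.negY x₂ y₂
      · obtain ⟨rfl, hy⟩ := hxy
        rw [Point.add_of_Y_eq rfl hy, tc_zero]
        exact (addT_inverse A hW h₁ h₂ hx₁ hy).symm
      · rw [Point.add_some hxy] at hPQ ⊢
        rw [tc_some]
        have hx₃ : W.addX x₁ x₂ (W.slope x₁ x₂ y₁ y₂) ∉ A := by
          rcases hPQ with h0 | ⟨x, y, h, heq, hx⟩
          · exact absurd h0 (Point.some_ne_zero _)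
          · rw [Point.some.injEq] at heq
            rw [heq.1]
            exact hx
        exact (addT_generic A hW h₁ h₂ hx₁ hx₂ hxy hx₃).symm

end Main

end Fermat.Agent.S40.E.Chart
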