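/-
`Fermat.Agent.S40.E.ChartBasic` — (E-HOPF), [E1] basic facts on the `(t, w)`-chart (statements of
helper28 #2874): on the kernel of reduction the chart equation `w = cub W t w` holds, `t ∈ 𝔪_A`,
`v(w) = v(t)^3`, and `t = 0` only at the origin.
-/
import Mathlib
import Fermat.Agent.S05.KernelGeneral
import Fermat.Agent.S40.E.Defs

set_option autoImplicit false

namespace Fermat.Agent.S40.E.ChartBasic

open WeierstrassCurve WeierstrassCurve.Affine Fermat.Agent.S05 Fermat.Agent.S40.E.Defs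

variable {K : Type*} [Field K]

section Val

variable {Γ₀ : Type*} [LinearOrderedCommGroupWithZero Γ₀] (v : Valuation K Γ₀)

/-- Valuations of the coordinates of a point with non-integral `x`-coordinate on an integral
Weierstrass equation: `v(y) ^ 2 = v(x) ^ 3`. -/
theorem val_y_sq {a₁ a₂ a₃ a₄ a₆ x y : K} (h₁ : v a₁ ≤ 1) (h₂ : v a₂ ≤ 1) (h₃ : v a₃ ≤ 1)
    (h₄ : v a₄ ≤ 1) (h₆ : v a₆ ≤ 1) (hx : 1 < v x)
    (h : y ^ 2 + a₁ * x * y + a₃ * y = x ^ 3 + a₂ * x ^ 2 + a₄ * x + a₆) :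
    v x < v y ∧ v y ^ 2 = v x ^ 3 := by
  have hx0 : (0 : Γ₀) < v x := lt_trans zero_lt_one hx
  have hx2 : v x < v x ^ 2 := by
    rw [pow_two]; exact lt_mul_of_one_lt_left hx0 hx
  have hx3 : v x ^ 2 < v x ^ 3 := by
    rw [pow_succ (v x) 2]; exact lt_mul_of_one_lt_right (pow_pos hx0 2) hx
  -- the right-hand side has valuation `v x ^ 3`
  have hR : v (x ^ 3 + a₂ * x ^ 2 + a₄ * x + a₆) = v x ^ 3 := by
    have e1 : v (a₂ * x ^ 2) ≤ v x ^ 2 := by
      rw [map_mul, map_pow]; exact mul_le_of_le_one_left' h₂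
    have e2 : v (a₄ * x) ≤ v x ^ 2 := by
      rw [map_mul]
      exact le_trans (mul_le_of_le_one_left' h₄) hx2.le
    have e3 : v a₆ ≤ v x ^ 2 := le_trans h₆ (le_trans hx.le hx2.le)
    have e4 : v (a₂ * x ^ 2 + a₄ * x + a₆) < v (x ^ 3) := by
      rw [map_pow]
      exact lt_of_le_of_lt (v.map_add_le (v.map_add_le e1 e2) e3) hx3
    have : x ^ 3 + a₂ * x ^ 2 + a₄ * x + a₆ = x ^ 3 + (a₂ * x ^ 2 + a₄ * x + a₆) := by ring
    rw [this, Valuation.map_add_eq_of_lt_left v e4, map_pow]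
  have hL : y ^ 2 + a₁ * x * y + a₃ * y = y * (y + (a₁ * x + a₃)) := by ring
  have hc : v (a₁ * x + a₃) ≤ v x := by
    refine v.map_add_le ?_ (le_trans h₃ hx.le)
    rw [map_mul]; exact mul_le_of_le_one_left' h₁
  have hxy : v x < v y := by
    by_contra hcon
    rw [not_lt] at hcon
    have e1 : v (y + (a₁ * x + a₃)) ≤ v x := v.map_add_le hcon hc
    have e2 : v (y * (y + (a₁ * x + a₃))) ≤ v x ^ 2 := by
      rw [map_mul, pow_two]
      exact mul_le_mul' hcon e1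
    rw [← hL, h, hR] at e2
    exact absurd e2 (not_le.mpr hx3)
  refine ⟨hxy, ?_⟩
  have e1 : v (y + (a₁ * x + a₃)) = v y :=
    Valuation.map_add_eq_of_lt_left v (lt_of_le_of_lt hc hxy)
  have e2 : v (y * (y + (a₁ * x + a₃))) = v y ^ 2 := by rw [map_mul, e1, pow_two]
  rw [← e2, ← hL, h, hR]

/-- Basic facts on the `(t, w)`-chart for a point with non-integral `x`-coordinate. -/
theorem tw_basic {a₁ a₂ a₃ a₄ a₆ x y : K} (h₁ : v a₁ ≤ 1) (h₂ : v a₂ ≤ 1) (h₃ : v a₃ ≤ 1)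
    (h₄ : v a₄ ≤ 1) (h₆ : v a₆ ≤ 1) (hx : 1 < v x)
    (h : y ^ 2 + a₁ * x * y + a₃ * y = x ^ 3 + a₂ * x ^ 2 + a₄ * x + a₆) :
    y ≠ 0 ∧ x ≠ 0 ∧ v (-x / y) < 1 ∧ v (-1 / y) = v (-x / y) ^ 3 := by
  obtain ⟨hxy, hy2⟩ := val_y_sq v h₁ h₂ h₃ h₄ h₆ hx h
  have hx0 : (0 : Γ₀) < v x := lt_trans zero_lt_one hx
  have hy0 : (0 : Γ₀) < v y := lt_trans hx0 hxy
  have hyne : y ≠ 0 := fun h0 => by simp [h0] at hy0
  have hxne : x ≠ 0 := fun h0 => by simp [h0] at hx0
  refine ⟨hyne, hxne, ?_, ?_⟩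
  · rw [map_div₀, Valuation.map_neg, div_lt_one₀ hy0]
    exact hxy
  · rw [map_div₀, map_div₀, Valuation.map_neg, Valuation.map_neg, map_one, div_pow, ← hy2]
    have : v y ^ 3 = v y ^ 2 * v y := pow_succ _ _
    rw [this]
    field_simp

end Val

variable [DecidableEq K] (A : ValuationSubring K) {W : Affine K}

omit [DecidableEq K] in
theorem one_lt_val_of_not_mem {x : K} (hx : x ∉ A) : 1 < A.valuation x := by
  rw [← not_le, A.valuation_le_one_iff]; exact hx

omit [DecidableEq K] in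
/-- the basic chart facts at a non-zero point of the kernel of reduction -/
theorem basic_some (hW : IntegralAt W A) {x y : K} (h : W.Nonsingular x y) (hx : x ∉ A) :
    y ≠ 0 ∧ x ≠ 0 ∧ A.valuation (-x / y) < 1 ∧ A.valuation (-1 / y) = A.valuation (-x / y) ^ 3 :=
  tw_basic A.valuation ((A.valuation_le_one_iff _).mpr hW.a₁) ((A.valuation_le_one_iff _).mpr hW.a₂)
    ((A.valuation_le_one_iff _).mpr hW.a₃) ((A.valuation_le_one_iff _).mpr hW.a₄)
    ((A.valuation_le_one_iff _).mpr hW.a₆) (one_lt_val_of_not_mem A hx)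
    ((equation_iff x y).mp h.1)

omit [DecidableEq K] in
/-- chart equation -/
theorem wc_eq_cub (hW : IntegralAt W A) {P : W.Point} (hP : Asm.InE1 A P) :
    wc P = cub W (tc P) (wc P) := by
  rcases hP with rfl | ⟨x, y, h, rfl, hx⟩
  · simp [cub]
  · obtain ⟨hy, -, -, -⟩ := basic_some A hW h hx
    have heq := (equation_iff x y).mp h.1
    rw [tc_some, wc_some, cub]
    field_simp
    linear_combination (-1 : K) * heq

omit [DecidableEq K] in
theorem tc_mem_nonunits (hW : IntegralAt W A) {P : W.Point} (hP : Asm.InE1 A P) :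
    tc P ∈ A.nonunits := by
  rcases hP with rfl | ⟨x, y, h, rfl, hx⟩
  · rw [tc_zero, A.mem_nonunits_iff, map_zero]; exact zero_lt_one
  · obtain ⟨-, -, ht, -⟩ := basic_some A hW h hx
    rw [tc_some, A.mem_nonunits_iff]; exact ht

omit [DecidableEq K] in
theorem val_wc_eq (hW : IntegralAt W A) {P : W.Point} (hP : Asm.InE1 A P) :
    A.valuation (wc P) = A.valuation (tc P) ^ 3 := by
  rcases hP with rfl | ⟨x, y, h, rfl, hx⟩
  · simp
  · obtain ⟨-, -, -, hw⟩ := basic_some A hW h hx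
    rw [tc_some, wc_some]; exact hw

omit [DecidableEq K] in
theorem val_wc_le (hW : IntegralAt W A) {P : W.Point} (hP : Asm.InE1 A P) :
    A.valuation (wc P) ≤ A.valuation (tc P) ^ 3 := (val_wc_eq A hW hP).le

omit [DecidableEq K] in
theorem eq_zero_of_tc_eq_zero (hW : IntegralAt W A) {P : W.Point} (hP : Asm.InE1 A P)
    (h : tc P = 0) : P = 0 := by
  rcases hP with rfl | ⟨x, y, hns, rfl, hx⟩
  · rfl
  · exfalso
    obtain ⟨hy, hx0, -, -⟩ := basic_some A hW hns hx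
    rw [tc_some, div_eq_zero_iff] at h
    rcases h with h | h
    · exact hx0 (neg_eq_zero.mp h)
    · exact hy h

end Fermat.Agent.S40.E.ChartBasic
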