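/-
(E-HOPF), wiring (owner: helper28).  **The formal group law of a Weierstrass curve, as polynomial
congruences on the kernel of reduction.**

`A` a valuation subring of a field `K`, `W` a Weierstrass curve over `K` with coefficients in a
subring `R ⊆ A`.  For every `N` there is a polynomial `F ∈ R[T₁, T₂]` with
`v(t(P + Q) - F(t(P), t(Q))) ≤ max(v t(P), v t(Q)) ^ N` for all `P, Q` in the kernel of reduction
(`t = -x / y`).  Proof: the chord-and-tangent law in the `(t, w)`-chart (`Chart.tc_add`) is a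
composite of rational functions with denominators `1 + small`; the approximation calculus
(`Approx`) is closed under these operations, and `w` itself is in the calculus by the contraction
`w = t³ + w · u(t, w)`.
-/
import Mathlib
import Fermat.Agent.S05.KernelGeneral
import Fermat.Agent.S40.E.Defs
import Fermat.Agent.S40.E.Approx
import Fermat.Agent.S40.E.Chart

set_option autoImplicit false

namespace Fermat.Agent.S40.E.Law

open WeierstrassCurve WeierstrassCurve.Affine Fermat.Agent.S05 Fermat.Agent.S40.E.Defs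
  Fermat.Agent.S40.E.Approx

/-! ### bundled predicates: approximable + integral, approximable + small -/

section Calculus

variable {K : Type*} [Field K] {A : ValuationSubring K} {R : Subring K} {X ι : Type*}
  {τ : X → ι → K} {μ : X → A.ValueGroup}

/-- approximable to order `N` and integral -/
def AI (A : ValuationSubring K) (R : Subring K) (τ : X → ι → K) (μ : X → A.ValueGroup) (N : ℕ)
    (φ : X → K) : Prop :=
  ApproxTo A R τ μ N φ ∧ ∀ x, φ x ∈ A

/-- approximable to order `N` and small -/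
def AS (A : ValuationSubring K) (R : Subring K) (τ : X → ι → K) (μ : X → A.ValueGroup) (N : ℕ)
    (φ : X → K) : Prop :=
  ApproxTo A R τ μ N φ ∧ Small A μ φ

variable (S : Setup A R τ μ) {N : ℕ} {φ ψ : X → K}
include S

theorem AS.toAI (h : AS A R τ μ N φ) : AI A R τ μ N φ :=
  ⟨h.1, fun x => Small.mem S h.2 x⟩

theorem AI.const {r : K} (hr : r ∈ R) : AI A R τ μ N (fun _ : X => r) :=
  ⟨approxTo_const S hr N, fun _ => S.coeff_mem r hr⟩

theorem AS.coord (i : ι) : AS A R τ μ N (fun x => τ x i) :=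
  ⟨approxTo_coord S i N, fun x => S.coord_le x i⟩

theorem AI.add (hφ : AI A R τ μ N φ) (hψ : AI A R τ μ N ψ) :
    AI A R τ μ N (fun x => φ x + ψ x) :=
  ⟨hφ.1.add S hψ.1, fun x => A.add_mem _ _ (hφ.2 x) (hψ.2 x)⟩

theorem AI.neg (hφ : AI A R τ μ N φ) : AI A R τ μ N (fun x => -φ x) :=
  ⟨hφ.1.neg S, fun x => A.neg_mem _ (hφ.2 x)⟩

theorem AI.sub (hφ : AI A R τ μ N φ) (hψ : AI A R τ μ N ψ) :
    AI A R τ μ N (fun x => φ x - ψ x) :=
  ⟨hφ.1.sub S hψ.1, fun x => sub_mem (hφ.2 x) (hψ.2 x)⟩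

theorem AI.mul (hφ : AI A R τ μ N φ) (hψ : AI A R τ μ N ψ) :
    AI A R τ μ N (fun x => φ x * ψ x) :=
  ⟨hφ.1.mul S hφ.2 hψ.2 hψ.1, fun x => A.mul_mem _ _ (hφ.2 x) (hψ.2 x)⟩

theorem AI.pow (hφ : AI A R τ μ N φ) (n : ℕ) : AI A R τ μ N (fun x => φ x ^ n) := by
  induction n with
  | zero =>
    simp only [pow_zero]
    exact AI.const S R.one_mem
  | succ n ih =>
    simp only [pow_succ]
    exact AI.mul S ih hφ

theorem AS.add (hφ : AS A R τ μ N φ) (hψ : AS A R τ μ N ψ) :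
    AS A R τ μ N (fun x => φ x + ψ x) :=
  ⟨hφ.1.add S hψ.1, hφ.2.add hψ.2⟩

theorem AS.neg (hφ : AS A R τ μ N φ) : AS A R τ μ N (fun x => -φ x) :=
  ⟨hφ.1.neg S, hφ.2.neg⟩

theorem AS.sub (hφ : AS A R τ μ N φ) (hψ : AS A R τ μ N ψ) :
    AS A R τ μ N (fun x => φ x - ψ x) := by
  have h := AS.add S hφ (AS.neg S hψ)
  simpa only [sub_eq_add_neg] using h

/-- integral times small -/
theorem AS.mul_left (hφ : AI A R τ μ N φ) (hψ : AS A R τ μ N ψ) :
    AS A R τ μ N (fun x => φ x * ψ x) :=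
  ⟨hφ.1.mul S hφ.2 (fun x => Small.mem S hψ.2 x) hψ.1, Small.mul_left hφ.2 hψ.2⟩

/-- small times integral -/
theorem AS.mul_right (hφ : AS A R τ μ N φ) (hψ : AI A R τ μ N ψ) :
    AS A R τ μ N (fun x => φ x * ψ x) := by
  have h := AS.mul_left S hψ hφ
  simpa only [mul_comm] using h

theorem AS.pow (hφ : AS A R τ μ N φ) {n : ℕ} (hn : 1 ≤ n) : AS A R τ μ N (fun x => φ x ^ n) := by
  obtain ⟨k, rfl⟩ := Nat.exists_eq_add_of_le' hn
  simp only [pow_succ]
  exact AS.mul_left S (AI.pow S (AS.toAI S hφ) k) hφ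

/-- `(1 + small)⁻¹` -/
theorem AI.inv_one_add (hφ : AS A R τ μ N φ) : AI A R τ μ N (fun x => (1 + φ x)⁻¹) :=
  ⟨hφ.1.inv_one_add S hφ.2, fun x => Small.inv_one_add_mem S hφ.2 x⟩

/-- `integral / (1 + small)` -/
theorem AI.div_one_add (hψ : AI A R τ μ N ψ) (hφ : AS A R τ μ N φ) :
    AI A R τ μ N (fun x => ψ x / (1 + φ x)) := by
  simp only [div_eq_mul_inv]
  exact AI.mul S hψ (AI.inv_one_add S hφ)

/-- `small / (1 + small)` -/
theorem AS.div_one_add (hψ : AS A R τ μ N ψ) (hφ : AS A R τ μ N φ) :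
    AS A R τ μ N (fun x => ψ x / (1 + φ x)) := by
  simp only [div_eq_mul_inv]
  exact AS.mul_right S hψ (AI.inv_one_add S hφ)

/-- a small function is in the calculus to order `1` -/
theorem AS.of_small (hφ : Small A μ φ) : AS A R τ μ 1 φ :=
  ⟨approxTo_one_of_small S hφ, hφ⟩

/-- the product of two small functions gains one order -/
theorem AS.small_mul (hN : 1 ≤ N) (hφ : AS A R τ μ N φ) (hψ : AS A R τ μ N ψ) :
    AS A R τ μ (N + 1) (fun x => φ x * ψ x) :=
  ⟨hφ.1.small_mul S hN hφ.2 hψ.2 hψ.1, Small.mul_left (fun x => Small.mem S hφ.2 x) hψ.2⟩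

theorem AS.mono {N' : ℕ} (h : N' ≤ N) (hφ : AS A R τ μ N φ) : AS A R τ μ N' φ :=
  ⟨hφ.1.mono S h, hφ.2⟩

end Calculus

/-! ### the chord-and-tangent law is in the calculus -/

/-- the Weierstrass coefficients lie in the subring `R` -/
structure CoeffIn {K : Type*} [Field K] (W : Affine K) (R : Subring K) : Prop where
  a₁ : W.a₁ ∈ R
  a₂ : W.a₂ ∈ R
  a₃ : W.a₃ ∈ R
  a₄ : W.a₄ ∈ R
  a₆ : W.a₆ ∈ R

section Pieces

variable {K : Type*} [Field K] {A : ValuationSubring K} {R : Subring K} {X ι : Type*}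
  {τ : X → ι → K} {μ : X → A.ValueGroup} (S : Setup A R τ μ) {W : Affine K} (hR : CoeffIn W R)
  {N : ℕ} {t₁ w₁ t₂ w₂ t w l n : X → K}
include S hR

theorem numA_AS (ht₁ : AS A R τ μ N t₁) (ht₂ : AS A R τ μ N t₂) (hw₂ : AS A R τ μ N w₂) :
    AS A R τ μ N (fun x => numA W (t₁ x) (t₂ x) (w₂ x)) := by
  simp only [numA]
  refine AS.add S (AS.add S (AS.add S (AS.add S (AS.add S ?_ ?_) ?_) ?_) ?_) ?_
  · exact AS.pow S ht₁ (by norm_num)
  · exact AS.mul_left S (AS.toAI S ht₁) ht₂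
  · exact AS.pow S ht₂ (by norm_num)
  · exact AS.mul_left S (AI.const S hR.a₁) hw₂
  · exact AS.mul_left S (AI.mul S (AI.const S hR.a₂) (AS.toAI S (AS.add S ht₁ ht₂))) hw₂
  · exact AS.mul_left S (AI.const S hR.a₄) (AS.pow S hw₂ (by norm_num))

theorem numB_AS (ht₁ : AS A R τ μ N t₁) (hw₁ : AS A R τ μ N w₁) (hw₂ : AS A R τ μ N w₂) :
    AS A R τ μ N (fun x => numB W (t₁ x) (w₁ x) (w₂ x)) := by
  simp only [numB]
  refine AS.add S (AS.add S (AS.add S ?_ ?_) ?_) ?_
  · exact AS.mul_left S (AI.const S hR.a₁) ht₁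
  · exact AS.mul_left S (AI.const S hR.a₂) (AS.pow S ht₁ (by norm_num))
  · exact AS.mul_left S (AI.add S (AI.const S hR.a₃) (AI.mul S (AI.const S hR.a₄) (AS.toAI S ht₁)))
      (AS.add S hw₁ hw₂)
  · refine AS.mul_left S (AI.const S hR.a₆) (AS.add S (AS.add S ?_ ?_) ?_)
    · exact AS.pow S hw₁ (by norm_num)
    · exact AS.mul_left S (AS.toAI S hw₁) hw₂
    · exact AS.pow S hw₂ (by norm_num)

theorem lam_AS (ht₁ : AS A R τ μ N t₁) (hw₁ : AS A R τ μ N w₁) (ht₂ : AS A R τ μ N t₂)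
    (hw₂ : AS A R τ μ N w₂) :
    AS A R τ μ N (fun x => lam W (t₁ x) (w₁ x) (t₂ x) (w₂ x)) := by
  simp only [lam, sub_eq_add_neg]
  exact AS.div_one_add S (numA_AS S hR ht₁ ht₂ hw₂) (AS.neg S (numB_AS S hR ht₁ hw₁ hw₂))

theorem nu_AS (ht₁ : AS A R τ μ N t₁) (hw₁ : AS A R τ μ N w₁) (ht₂ : AS A R τ μ N t₂)
    (hw₂ : AS A R τ μ N w₂) :
    AS A R τ μ N (fun x => nu W (t₁ x) (w₁ x) (t₂ x) (w₂ x)) := by
  simp only [nu]
  exact AS.sub S hw₁ (AS.mul_left S (AS.toAI S (lam_AS S hR ht₁ hw₁ ht₂ hw₂)) ht₁)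

theorem thirdTOf_AS (ht₁ : AS A R τ μ N t₁) (ht₂ : AS A R τ μ N t₂) (hl : AS A R τ μ N l)
    (hn : AS A R τ μ N n) :
    AS A R τ μ N (fun x => thirdTOf W (t₁ x) (t₂ x) (l x) (n x)) := by
  simp only [thirdTOf, add_assoc]
  refine AS.sub S (AS.sub S (AS.neg S ht₁) ht₂) (AS.div_one_add S ?_ ?_)
  · refine AS.add S ?_ (AS.add S ?_ (AS.add S ?_ (AS.add S ?_ ?_)))
    · exact AS.mul_left S (AI.const S hR.a₁) hl
    · exact AS.mul_left S (AI.const S hR.a₂) hn
    · exact AS.mul_left S (AI.const S hR.a₃) (AS.pow S hl (by norm_num))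
    · exact AS.mul_left S (AI.mul S (AI.mul S (AI.const S (ofNat_mem R 2))
        (AI.const S hR.a₄)) (AS.toAI S hl)) hn
    · exact AS.mul_left S (AI.mul S (AI.mul S (AI.const S (ofNat_mem R 3))
        (AI.const S hR.a₆)) (AI.pow S (AS.toAI S hl) 2)) hn
  · refine AS.add S ?_ (AS.add S ?_ ?_)
    · exact AS.mul_left S (AI.const S hR.a₂) hl
    · exact AS.mul_left S (AI.const S hR.a₄) (AS.pow S hl (by norm_num))
    · exact AS.mul_left S (AI.const S hR.a₆) (AS.pow S hl (by norm_num))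

theorem thirdT_AS (ht₁ : AS A R τ μ N t₁) (hw₁ : AS A R τ μ N w₁) (ht₂ : AS A R τ μ N t₂)
    (hw₂ : AS A R τ μ N w₂) :
    AS A R τ μ N (fun x => thirdT W (t₁ x) (w₁ x) (t₂ x) (w₂ x)) := by
  simp only [thirdT]
  exact thirdTOf_AS S hR ht₁ ht₂ (lam_AS S hR ht₁ hw₁ ht₂ hw₂) (nu_AS S hR ht₁ hw₁ ht₂ hw₂)

theorem thirdW_AS (ht₁ : AS A R τ μ N t₁) (hw₁ : AS A R τ μ N w₁) (ht₂ : AS A R τ μ N t₂)
    (hw₂ : AS A R τ μ N w₂) :
    AS A R τ μ N (fun x => thirdW W (t₁ x) (w₁ x) (t₂ x) (w₂ x)) := by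
  simp only [thirdW]
  exact AS.add S (AS.mul_left S (AS.toAI S (lam_AS S hR ht₁ hw₁ ht₂ hw₂))
    (thirdT_AS S hR ht₁ hw₁ ht₂ hw₂)) (nu_AS S hR ht₁ hw₁ ht₂ hw₂)

theorem negT_AS (ht : AS A R τ μ N t) (hw : AS A R τ μ N w) :
    AS A R τ μ N (fun x => negT W (t x) (w x)) := by
  simp only [negT, sub_eq_add_neg, add_assoc]
  refine AS.div_one_add S (AS.neg S ht) (AS.add S (AS.neg S ?_) (AS.neg S ?_))
  · exact AS.mul_left S (AI.const S hR.a₁) ht
  · exact AS.mul_left S (AI.const S hR.a₃) hw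

/-- **the `t`-coordinate of the sum is in the calculus** -/
theorem addT_AS (ht₁ : AS A R τ μ N t₁) (hw₁ : AS A R τ μ N w₁) (ht₂ : AS A R τ μ N t₂)
    (hw₂ : AS A R τ μ N w₂) :
    AS A R τ μ N (fun x => addT W (t₁ x) (w₁ x) (t₂ x) (w₂ x)) := by
  simp only [addT]
  exact negT_AS S hR (thirdT_AS S hR ht₁ hw₁ ht₂ hw₂) (thirdW_AS S hR ht₁ hw₁ ht₂ hw₂)

/-- **the contraction**: a small solution of `w = cub W t w` is in the calculus to every order -/
theorem w_AS (ht : ∀ N, AS A R τ μ N t) (hws : Small A μ w)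
    (hw : ∀ x, w x = cub W (t x) (w x)) : ∀ N, 1 ≤ N → AS A R τ μ N w := by
  intro N hN
  induction N, hN using Nat.le_induction with
  | base => exact AS.of_small S hws
  | succ N hN ih =>
    have hu : AS A R τ μ N (fun x => W.a₁ * t x + W.a₂ * t x ^ 2 + W.a₃ * w x +
        W.a₄ * t x * w x + W.a₆ * w x ^ 2) := by
      refine AS.add S (AS.add S (AS.add S (AS.add S ?_ ?_) ?_) ?_) ?_
      · exact AS.mul_left S (AI.const S hR.a₁) (ht N)
      · exact AS.mul_left S (AI.const S hR.a₂) (AS.pow S (ht N) (by norm_num))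
      · exact AS.mul_left S (AI.const S hR.a₃) ih
      · exact AS.mul_left S (AI.mul S (AI.const S hR.a₄) (AS.toAI S (ht N))) ih
      · exact AS.mul_left S (AI.const S hR.a₆) (AS.pow S ih (by norm_num))
    have h1 := AS.small_mul S hN ih hu
    have h2 : AS A R τ μ (N + 1) (fun x => t x ^ 3) := AS.pow S (ht (N + 1)) (by norm_num)
    have h3 := AS.add S h2 h1
    have e : (fun x => t x ^ 3 + w x * (W.a₁ * t x + W.a₂ * t x ^ 2 + W.a₃ * w x +
        W.a₄ * t x * w x + W.a₆ * w x ^ 2)) = w := by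
      funext x
      conv_rhs => rw [hw x]
      simp only [cub]
      ring
    rwa [e] at h3

end Pieces

/-! ### the main statement -/

section Main

variable {K : Type*} [Field K] [DecidableEq K] (A : ValuationSubring K) {W : Affine K}

/-- pairs of points of the kernel of reduction -/
abbrev KerPair (A : ValuationSubring K) (W : Affine K) : Type _ :=
  {x : W.Point × W.Point // Asm.InE1 A x.1 ∧ Asm.InE1 A x.2}

/-- the two coordinates `t(P)`, `t(Q)` -/
def coords (x : KerPair A W) : Fin 1 ⊕ Fin 1 → K :=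
  Sum.elim (fun _ => tc x.1.1) (fun _ => tc x.1.2)

/-- the size `max(v t(P), v t(Q))` -/
noncomputable def size (x : KerPair A W) : A.ValueGroup :=
  max (A.valuation (tc x.1.1)) (A.valuation (tc x.1.2))

omit [DecidableEq K] in
theorem setup (hW : IntegralAt W A) (R : Subring K) (hRA : ∀ r ∈ R, r ∈ A) :
    Setup A R (coords A (W := W)) (size A) where
  coeff_mem := hRA
  coord_le := by
    rintro x (i | i)
    · exact le_max_left _ _
    · exact le_max_right _ _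
  lt_one := fun x => max_lt
    ((ValuationSubring.mem_nonunits_iff A).1 (Chart.tc_mem_nonunits A hW x.2.1))
    ((ValuationSubring.mem_nonunits_iff A).1 (Chart.tc_mem_nonunits A hW x.2.2))

omit [DecidableEq K] in
/-- `v(w) ≤ v(t)` on the kernel of reduction -/
theorem val_wc_le_val_tc (hW : IntegralAt W A) {P : W.Point} (hP : Asm.InE1 A P) :
    A.valuation (wc P) ≤ A.valuation (tc P) := by
  refine (Chart.val_wc_le A hW hP).trans ?_
  have h1 : A.valuation (tc P) ≤ 1 :=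
    ((ValuationSubring.mem_nonunits_iff A).1 (Chart.tc_mem_nonunits A hW hP)).le
  calc A.valuation (tc P) ^ 3 = A.valuation (tc P) ^ 2 * A.valuation (tc P) := pow_succ _ 2
    _ ≤ 1 * A.valuation (tc P) := mul_le_mul_left (pow_le_one₀ zero_le h1) _
    _ = A.valuation (tc P) := one_mul _

/-- **The formal group law modulo any power.**  For every `N` there is a polynomial
`F ∈ R[T₁, T₂]` such that `t(P + Q) ≡ F(t(P), t(Q))` modulo `max(|t(P)|, |t(Q)|) ^ N` for all
points `P`, `Q` of the kernel of reduction. -/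
theorem exists_addPoly (hW : IntegralAt W A) (R : Subring K) (hRA : ∀ r ∈ R, r ∈ A)
    (hR : CoeffIn W R) (N : ℕ) :
    ∃ F : MvPolynomial (Fin 1 ⊕ Fin 1) K, (∀ m, F.coeff m ∈ R) ∧
      ∀ P Q : W.Point, Asm.InE1 A P → Asm.InE1 A Q →
        A.valuation (tc (P + Q) -
            MvPolynomial.aeval (Sum.elim (fun _ => tc P) (fun _ => tc Q)) F) ≤
          (max (A.valuation (tc P)) (A.valuation (tc Q))) ^ N := by
  have S := setup A hW R hRA
  have ht₁ : ∀ N, AS A R (coords A (W := W)) (size A) N (fun x => tc x.1.1) :=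
    fun N => AS.coord S (Sum.inl 0)
  have ht₂ : ∀ N, AS A R (coords A (W := W)) (size A) N (fun x => tc x.1.2) :=
    fun N => AS.coord S (Sum.inr 0)
  have hw₁ : ∀ N, 1 ≤ N → AS A R (coords A (W := W)) (size A) N (fun x => wc x.1.1) :=
    w_AS S hR ht₁ (fun x => (val_wc_le_val_tc A hW x.2.1).trans (le_max_left _ _))
      (fun x => Chart.wc_eq_cub A hW x.2.1)
  have hw₂ : ∀ N, 1 ≤ N → AS A R (coords A (W := W)) (size A) N (fun x => wc x.1.2) :=
    w_AS S hR ht₂ (fun x => (val_wc_le_val_tc A hW x.2.2).trans (le_max_right _ _))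
      (fun x => Chart.wc_eq_cub A hW x.2.2)
  have hN1 : 1 ≤ N + 1 := Nat.le_add_left 1 N
  have hadd := addT_AS S hR (ht₁ (N + 1)) (hw₁ (N + 1) hN1) (ht₂ (N + 1)) (hw₂ (N + 1) hN1)
  obtain ⟨F, hF, hFx⟩ := (AS.mono S (Nat.le_succ N) hadd).1
  refine ⟨F, hF, fun P Q hP hQ => ?_⟩
  have := hFx ⟨(P, Q), hP, hQ⟩
  rw [Chart.tc_add A hW hP hQ]
  exact this

end Main

end Fermat.Agent.S40.E.Law
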