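/-
`Fermat.Agent.S40.E.UnrLift` — (E-HOPF), block [E4] core (Defs-agnostic, S05 vocabulary).

`A ⊂ Q̄` a valuation subring over the prime `q`, `Kmax A` the fixed field of its inertia group.
* `y_mem_of_equation`, `not_both_nonunits_of_disc` : integrality of `y`, and unit discriminant ⇒
  every integral solution has nonsingular reduction (any field, any valuation subring);
* `exists_residue_lift` : every `a ∈ A` is congruent modulo `𝔪_A` to an element of `A ∩ Kmax A`;
* `exists_unr_point` : an `A`-integral point `(x, y)` of `W'⁄Q̄` (`W'` over `ℚ`, integral at `A`) whose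
  reduction is nonsingular is congruent modulo `𝔪_A` to an `A`-integral point with coordinates in
  `Kmax A` (Hensel in the strictly henselian ring `A ∩ Kmax A`, `S19/Base/HenselKmax`);
* `exists_fixed_point_sub_inE1` : consumer form — an inertia-fixed point `P'` with
  `P - P' ∈ E₁` (kernel of reduction, `S05/SameRed.InE1`).
-/
import Mathlib
import Fermat.Agent.S19.Base.HenselKmax
import Fermat.Agent.S05.SameRed
import Fermat.Agent.S05.Basic
import Fermat.Agent.S05.Inertia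

set_option autoImplicit false
set_option linter.unusedSectionVars false

open Fermat.Agent.N4.BigDVR Fermat.Agent.S36.Descent.UnramLevel Polynomial
open WeierstrassCurve WeierstrassCurve.Affine

noncomputable section

namespace Fermat.Agent.S40.E.UnrLift

section Generic

variable {K : Type*} [Field K]

/-- The `y`-coordinate of a solution with integral `x`-coordinate is integral. -/
theorem y_mem_of_equation (A : ValuationSubring K) {E : Affine K}
    (hE : Fermat.Agent.S05.IntegralAt E A) {x y : K} (h : E.Equation x y) (hx : x ∈ A) : y ∈ A := by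
  have heq := (equation_iff x y).mp h
  set b : ↥A := ⟨E.a₁ * x + E.a₃, add_mem (mul_mem hE.a₁ hx) hE.a₃⟩ with hb
  set c : ↥A := ⟨-(x ^ 3 + E.a₂ * x ^ 2 + E.a₄ * x + E.a₆),
    neg_mem (add_mem (add_mem (add_mem (pow_mem hx 3) (mul_mem hE.a₂ (pow_mem hx 2)))
      (mul_mem hE.a₄ hx)) hE.a₆)⟩ with hc
  have hint : IsIntegral ↥A y := by
    refine ⟨X ^ 2 + C b * X + C c, by monicity!, ?_⟩
    simp only [eval₂_add, eval₂_mul, eval₂_pow, eval₂_X, eval₂_C]
    show y ^ 2 + (E.a₁ * x + E.a₃) * y + -(x ^ 3 + E.a₂ * x ^ 2 + E.a₄ * x + E.a₆) = 0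
    linear_combination heq
  exact Fermat.Agent.N4.BigDVR.mem_of_isIntegral A (R := ↥A) (fun a => a.2) hint

/-- **Unit discriminant ⇒ every integral solution reduces to a nonsingular point.** -/
theorem not_both_nonunits_of_disc (A : ValuationSubring K) {E : Affine K}
    (hE : Fermat.Agent.S05.IntegralAt E A) (hΔ : E.Δ ∉ A.nonunits) {x y : K}
    (h : E.Equation x y) (hx : x ∈ A) (hy : y ∈ A) :
    ¬ (E.a₁ * y - (3 * x ^ 2 + 2 * E.a₂ * x + E.a₄) ∈ A.nonunits ∧
      2 * y + E.a₁ * x + E.a₃ ∈ A.nonunits) := by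
  rintro ⟨hFx, hFy⟩
  set EA : WeierstrassCurve ↥A :=
    ⟨⟨E.a₁, hE.a₁⟩, ⟨E.a₂, hE.a₂⟩, ⟨E.a₃, hE.a₃⟩, ⟨E.a₄, hE.a₄⟩, ⟨E.a₆, hE.a₆⟩⟩ with hEA
  have hmap : EA.map A.subtype = E := by
    ext <;> rfl
  set x' : ↥A := ⟨x, hx⟩ with hx'
  set y' : ↥A := ⟨y, hy⟩ with hy'
  have heqA : EA.toAffine.Equation x' y' := by
    rw [← EA.toAffine.map_equation (f := A.subtype) Subtype.val_injective]
    show (EA.map A.subtype).toAffine.Equation x y
    rw [hmap]; exact h
  have hΔA : IsUnit EA.Δ := by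
    have h1 : ((EA.Δ : ↥A) : K) = E.Δ := by
      have := EA.map_Δ A.subtype
      rw [hmap] at this
      exact this.symm
    rw [← h1] at hΔ
    by_contra hnu
    exact hΔ ((ValuationSubring.coe_mem_nonunits_iff (A := A)).mpr hnu)
  set π := IsLocalRing.residue ↥A with hπ
  have hΔk : (EA.map π).Δ ≠ 0 := by
    rw [WeierstrassCurve.map_Δ]
    exact (IsLocalRing.residue_ne_zero_iff_isUnit _).mpr hΔA
  have heqk : (EA.map π).toAffine.Equation (π x') (π y') := Equation.map π heqA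
  have hns := ((EA.map π).toAffine.equation_iff_nonsingular_of_Δ_ne_zero hΔk).mp heqk
  rw [nonsingular_iff] at hns
  have hFx' : π (EA.a₁ * y' - (3 * x' ^ 2 + 2 * EA.a₂ * x' + EA.a₄)) = 0 := by
    rw [IsLocalRing.residue_eq_zero_iff, IsLocalRing.mem_maximalIdeal, mem_nonunits_iff]
    intro hu
    exact ((ValuationSubring.coe_mem_nonunits_iff (A := A)).mp hFx) hu
  have hFy' : π (2 * y' + EA.a₁ * x' + EA.a₃) = 0 := by
    rw [IsLocalRing.residue_eq_zero_iff, IsLocalRing.mem_maximalIdeal, mem_nonunits_iff]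
    intro hu
    exact ((ValuationSubring.coe_mem_nonunits_iff (A := A)).mp hFy) hu
  rcases hns.2 with h1 | h1
  · apply h1
    simp only [map_sub, map_add, map_mul, map_pow, map_ofNat] at hFx'
    simp only [WeierstrassCurve.map_a₁, WeierstrassCurve.map_a₂, WeierstrassCurve.map_a₄]
    linear_combination hFx'
  · apply h1
    simp only [map_add, map_mul, map_ofNat] at hFy'
    simp only [WeierstrassCurve.map_a₁, WeierstrassCurve.map_a₃]
    linear_combination hFy'

end Generic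

local notation "Qbar" => AlgebraicClosure ℚ
local notation "Γ" => (AlgebraicClosure ℚ ≃ₐ[ℚ] AlgebraicClosure ℚ)

variable {A : ValuationSubring Qbar}

/-- Every element of `A` is congruent modulo `𝔪_A` to an element of `A ∩ Kmax A`. -/
theorem exists_residue_lift {q : ℕ} (hq : q.Prime) (hA : A.LiesOverPrime q) {a : Qbar}
    (ha : a ∈ A) : ∃ a₀ : Qbar, a₀ ∈ A ∧ a₀ ∈ Kmax A ∧ a - a₀ ∈ A.nonunits := by
  obtain ⟨z, hz⟩ := (isUnramLevel_Kmax hq hA).bij.2 (IsLocalRing.residue ↥A ⟨a, ha⟩)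
  obtain ⟨z₀, rfl⟩ := IsLocalRing.residue_surjective z
  rw [IsLocalRing.ResidueField.map_residue] at hz
  refine ⟨algebraMap ↥(Kmax A) Qbar (z₀ : ↥(Kmax A)), (mem_tr_iff A ↥(Kmax A)).mp z₀.2,
    (z₀ : ↥(Kmax A)).2, ?_⟩
  have h1 : (⟨a, ha⟩ : ↥A) - trIncl A ↥(Kmax A) z₀ ∈ IsLocalRing.maximalIdeal ↥A := by
    rw [← Ideal.Quotient.eq_zero_iff_mem]
    have : IsLocalRing.residue ↥A (⟨a, ha⟩ - trIncl A ↥(Kmax A) z₀) = 0 := by
      rw [map_sub, hz, sub_self]
    exact this
  rw [IsLocalRing.mem_maximalIdeal, mem_nonunits_iff] at h1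
  have h2 := (ValuationSubring.coe_mem_nonunits_iff (A := A)).mpr h1
  exact h2

/-- An element of `A ∩ Kmax A`, as an element of the base ring of `HenselKmax`. -/
def mkTr (x : Qbar) (hxA : x ∈ A) (hxK : x ∈ Kmax A) : ↥(trSubring A (Kmax A)) :=
  ⟨⟨x, hxK⟩, (mem_tr_iff A ↥(Kmax A)).mpr hxA⟩

@[simp] theorem ιmax_mkTr (x : Qbar) (hxA : x ∈ A) (hxK : x ∈ Kmax A) :
    Fermat.Agent.S19.Base.HenselKmax.ιmax A (mkTr x hxA hxK) = x := rfl

open Fermat.Agent.S19.Base.HenselKmax in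
/-- The roots of a monic polynomial over `A ∩ Kmax A` lie in `A`. -/
theorem root_mem (P : Polynomial ↥(trSubring A (Kmax A))) (hP : P.Monic) {r : Qbar}
    (hr : (P.map (ιmax A)).eval r = 0) : r ∈ A := by
  set j : ↥(trSubring A (Kmax A)) →+* ↥A := trIncl A ↥(Kmax A) with hj
  have hjι : (A.subtype : ↥A →+* Qbar).comp j = ιmax A := by ext z; rfl
  have hint : IsIntegral ↥A r := by
    refine ⟨P.map j, hP.map j, ?_⟩
    rw [← Polynomial.eval_map]
    have : (P.map j).map (algebraMap ↥A Qbar) = P.map (ιmax A) := by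
      rw [Polynomial.map_map]
      congr 1
    rw [this]; exact hr
  exact mem_of_isIntegral A (R := ↥A) (fun a => a.2) hint

open Fermat.Agent.S19.Base.HenselKmax in
/-- A monic polynomial over `A ∩ Kmax A` with an approximate root `b ∈ A` modulo `𝔪_A` has a root
in `A` congruent to `b`. -/
theorem exists_root_near (P : Polynomial ↥(trSubring A (Kmax A))) (hP : P.Monic) {b : Qbar}
    (hb : b ∈ A) (hPb : (P.map (ιmax A)).eval b ∈ A.nonunits) :
    ∃ r : Qbar, r ∈ A ∧ (P.map (ιmax A)).eval r = 0 ∧ b - r ∈ A.nonunits := by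
  set f : Polynomial Qbar := P.map (ιmax A) with hf
  have hfm : f.Monic := hP.map _
  have hsplit : f.Splits := IsAlgClosed.splits f
  have hev := hsplit.eval_eq_prod_roots_of_monic hfm b
  by_contra hcon
  push Not at hcon
  have hroot : ∀ r ∈ f.roots, A.valuation (b - r) = 1 := by
    intro r hr
    have hr0 : f.eval r = 0 := (Polynomial.mem_roots hfm.ne_zero).mp hr
    have hrA : r ∈ A := root_mem P hP hr0
    have h1 : b - r ∈ A := A.sub_mem hb hrA
    have h2 : b - r ∉ A.nonunits := hcon r hrA hr0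
    rw [ValuationSubring.mem_nonunits_iff] at h2
    exact le_antisymm ((A.valuation_le_one_iff _).mpr h1) (not_lt.mp h2)
  have hv : A.valuation (f.eval b) = 1 := by
    rw [hev, map_multiset_prod, Multiset.map_map]
    apply Multiset.prod_eq_one
    intro v hv
    obtain ⟨r, hr, rfl⟩ := Multiset.mem_map.mp hv
    exact hroot r hr
  rw [ValuationSubring.mem_nonunits_iff, hv] at hPb
  exact lt_irrefl _ hPb

/-! ### Small calculus of `𝔪_A` -/

theorem nu_add {a b : Qbar} (ha : a ∈ A.nonunits) (hb : b ∈ A.nonunits) : a + b ∈ A.nonunits := by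
  rw [ValuationSubring.mem_nonunits_iff] at ha hb ⊢
  exact Valuation.map_add_lt _ ha hb

theorem nu_neg {a : Qbar} (ha : a ∈ A.nonunits) : -a ∈ A.nonunits := by
  rw [ValuationSubring.mem_nonunits_iff] at ha ⊢
  rwa [Valuation.map_neg]

theorem nu_sub {a b : Qbar} (ha : a ∈ A.nonunits) (hb : b ∈ A.nonunits) : a - b ∈ A.nonunits := by
  rw [sub_eq_add_neg]; exact nu_add ha (nu_neg hb)

theorem nu_mul {l d : Qbar} (hl : l ∈ A) (hd : d ∈ A.nonunits) : l * d ∈ A.nonunits :=
  Fermat.Agent.S05.SameRed.mul_mem_nonunits_of_mem A hl hd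

theorem nu_mul' {l d : Qbar} (hl : l ∈ A) (hd : d ∈ A.nonunits) : d * l ∈ A.nonunits := by
  rw [mul_comm]; exact nu_mul hl hd

theorem zero_mem_nu : (0 : Qbar) ∈ A.nonunits := by
  rw [ValuationSubring.mem_nonunits_iff, map_zero]; exact zero_lt_one

/-- The coefficients of `E` lie in `Kmax A` (e.g. `E = W'⁄Q̄` with `W'` over `ℚ`). -/
structure CoeffsUnr (E : Affine Qbar) (A : ValuationSubring Qbar) : Prop where
  a₁ : E.a₁ ∈ Kmax A
  a₂ : E.a₂ ∈ Kmax A
  a₃ : E.a₃ ∈ Kmax A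
  a₄ : E.a₄ ∈ Kmax A
  a₆ : E.a₆ ∈ Kmax A

theorem coeffsUnr_baseChange (W' : Affine ℚ) (A : ValuationSubring Qbar) :
    CoeffsUnr (W'⁄Qbar) A :=
  ⟨(Kmax A).algebraMap_mem _, (Kmax A).algebraMap_mem _, (Kmax A).algebraMap_mem _,
    (Kmax A).algebraMap_mem _, (Kmax A).algebraMap_mem _⟩

theorem eval_cubic (a b c z : Qbar) :
    (X ^ 3 + C a * X ^ 2 + C b * X + C c : Qbar[X]).eval z = z ^ 3 + a * z ^ 2 + b * z + c := by
  simp

theorem der_cubic (a b c z : Qbar) :
    (X ^ 3 + C a * X ^ 2 + C b * X + C c : Qbar[X]).derivative.eval z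
      = 3 * z ^ 2 + 2 * a * z + b := by
  simp; ring

theorem eval_quadratic (b c z : Qbar) :
    (X ^ 2 + C b * X + C c : Qbar[X]).eval z = z ^ 2 + b * z + c := by
  simp

theorem der_quadratic (b c z : Qbar) :
    (X ^ 2 + C b * X + C c : Qbar[X]).derivative.eval z = 2 * z + b := by
  simp only [derivative_add, derivative_mul, derivative_X_pow, derivative_C, derivative_X,
    eval_add, eval_mul, eval_pow, eval_X, eval_C, zero_mul, mul_one, zero_add,
    add_zero, Nat.cast_ofNat]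
  norm_num

open Fermat.Agent.S19.Base.HenselKmax in
/-- **Unramified lift of a point with nonsingular reduction.** -/
theorem exists_unr_point {q : ℕ} (hq : q.Prime) (hA : A.LiesOverPrime q) {E : Affine Qbar}
    (hE : Fermat.Agent.S05.IntegralAt E A) (hK : CoeffsUnr E A) {x y : Qbar}
    (h : E.Nonsingular x y) (hx : x ∈ A) (hy : y ∈ A)
    (hns : ¬ (E.a₁ * y - (3 * x ^ 2 + 2 * E.a₂ * x + E.a₄) ∈ A.nonunits ∧
      2 * y + E.a₁ * x + E.a₃ ∈ A.nonunits)) :
    ∃ (x' y' : Qbar) (_ : E.Nonsingular x' y'), x' ∈ A ∧ y' ∈ A ∧ x' ∈ Kmax A ∧ y' ∈ Kmax A ∧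
      x - x' ∈ A.nonunits ∧ y - y' ∈ A.nonunits := by
  have heq := (equation_iff x y).mp h.1
  have h2A : (2 : Qbar) ∈ A := hE.two_mem
  have h3A : (3 : Qbar) ∈ A := by exact_mod_cast natCast_mem A 3
  by_cases hFy : 2 * y + E.a₁ * x + E.a₃ ∈ A.nonunits
  · -- lift `y`, solve the cubic in `X`
    have hFx : E.a₁ * y - (3 * x ^ 2 + 2 * E.a₂ * x + E.a₄) ∉ A.nonunits := fun hc => hns ⟨hc, hFy⟩
    obtain ⟨y', hy'A, hy'K, hyy'⟩ := exists_residue_lift hq hA hy
    set c₂ := mkTr E.a₂ hE.a₂ hK.a₂ with hc₂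
    set c₁ := mkTr (E.a₄ - E.a₁ * y') (sub_mem hE.a₄ (mul_mem hE.a₁ hy'A))
      (sub_mem hK.a₄ (mul_mem hK.a₁ hy'K)) with hc₁
    set c₀ := mkTr (E.a₆ - y' ^ 2 - E.a₃ * y')
      (sub_mem (sub_mem hE.a₆ (pow_mem hy'A 2)) (mul_mem hE.a₃ hy'A))
      (sub_mem (sub_mem hK.a₆ (pow_mem hy'K 2)) (mul_mem hK.a₃ hy'K))
      with hc₀
    set P : Polynomial ↥(trSubring A (Kmax A)) := X ^ 3 + C c₂ * X ^ 2 + C c₁ * X + C c₀ with hP
    have hPm : P.Monic := by
      rw [hP]
      monicity!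
    have hmap : P.map (ιmax A) = X ^ 3 + C E.a₂ * X ^ 2 + C (E.a₄ - E.a₁ * y') * X
        + C (E.a₆ - y' ^ 2 - E.a₃ * y') := by
      rw [hP]
      simp only [Polynomial.map_add, Polynomial.map_mul, Polynomial.map_pow, Polynomial.map_X,
        Polynomial.map_C, hc₂, hc₁, hc₀, ιmax_mkTr]
    have hev : ∀ z : Qbar, (P.map (ιmax A)).eval z = z ^ 3 + E.a₂ * z ^ 2 + (E.a₄ - E.a₁ * y') * z
        + (E.a₆ - y' ^ 2 - E.a₃ * y') := by
      intro z; rw [hmap, eval_cubic]
    have hder : ∀ z : Qbar, (P.map (ιmax A)).derivative.eval z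
        = 3 * z ^ 2 + 2 * E.a₂ * z + (E.a₄ - E.a₁ * y') := by
      intro z; rw [hmap, der_cubic]
    have hPx : (P.map (ιmax A)).eval x ∈ A.nonunits := by
      have : (P.map (ιmax A)).eval x = (y - y') * (y + y' + E.a₁ * x + E.a₃) := by
        rw [hev]; linear_combination (-1 : Qbar) * heq
      rw [this]
      exact nu_mul' (add_mem (add_mem (add_mem hy hy'A) (mul_mem hE.a₁ hx)) hE.a₃) hyy'
    obtain ⟨x₁, hx₁A, hx₁root, hxx₁⟩ := exists_root_near P hPm hx hPx
    have hsimple : (P.map (ιmax A)).derivative.eval x₁ ∉ A.nonunits := by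
      intro hc
      apply hFx
      have : E.a₁ * y - (3 * x ^ 2 + 2 * E.a₂ * x + E.a₄)
          = (x₁ - x) * (3 * (x₁ + x) + 2 * E.a₂) + E.a₁ * (y - y')
            - (P.map (ιmax A)).derivative.eval x₁ := by
        rw [hder]; ring
      rw [this]
      refine nu_sub (nu_add (nu_mul' ?_ ?_) (nu_mul hE.a₁ hyy')) hc
      · exact add_mem (mul_mem h3A (add_mem hx₁A hx)) (mul_mem h2A hE.a₂)
      · have : x₁ - x = -(x - x₁) := by ring
        rw [this]; exact nu_neg hxx₁
    have hx₁K : x₁ ∈ Kmax A := mem_Kmax_of_simple_root P hx₁A hx₁root hsimple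
    have hns' : E.Nonsingular x₁ y' := by
      rw [nonsingular_iff]
      refine ⟨?_, Or.inl ?_⟩
      · rw [equation_iff]
        have := hx₁root
        rw [hev] at this
        linear_combination (-1 : Qbar) * this
      · intro hc
        apply hsimple
        rw [hder]
        have : 3 * x₁ ^ 2 + 2 * E.a₂ * x₁ + (E.a₄ - E.a₁ * y') = 0 := by
          linear_combination (-1 : Qbar) * hc
        rw [this]; exact zero_mem_nu
    exact ⟨x₁, y', hns', hx₁A, hy'A, hx₁K, hy'K, hxx₁, hyy'⟩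
  · -- lift `x`, solve the quadratic in `Y`
    obtain ⟨x', hx'A, hx'K, hxx'⟩ := exists_residue_lift hq hA hx
    set c₁ := mkTr (E.a₁ * x' + E.a₃) (add_mem (mul_mem hE.a₁ hx'A) hE.a₃)
      (add_mem (mul_mem hK.a₁ hx'K) hK.a₃) with hc₁
    set c₀ := mkTr (-(x' ^ 3 + E.a₂ * x' ^ 2 + E.a₄ * x' + E.a₆))
      (neg_mem (add_mem (add_mem (add_mem (pow_mem hx'A 3)
        (mul_mem hE.a₂ (pow_mem hx'A 2))) (mul_mem hE.a₄ hx'A)) hE.a₆))
      (neg_mem (add_mem (add_mem (add_mem (pow_mem hx'K 3)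
        (mul_mem hK.a₂ (pow_mem hx'K 2))) (mul_mem hK.a₄ hx'K)) hK.a₆))
      with hc₀
    set P : Polynomial ↥(trSubring A (Kmax A)) := X ^ 2 + C c₁ * X + C c₀ with hP
    have hPm : P.Monic := by
      rw [hP]
      monicity!
    have hmap : P.map (ιmax A) = X ^ 2 + C (E.a₁ * x' + E.a₃) * X
        + C (-(x' ^ 3 + E.a₂ * x' ^ 2 + E.a₄ * x' + E.a₆)) := by
      rw [hP]
      simp only [Polynomial.map_add, Polynomial.map_mul, Polynomial.map_pow, Polynomial.map_X,
        Polynomial.map_C, hc₁, hc₀, ιmax_mkTr]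
    have hev : ∀ z : Qbar, (P.map (ιmax A)).eval z = z ^ 2 + (E.a₁ * x' + E.a₃) * z
        + (-(x' ^ 3 + E.a₂ * x' ^ 2 + E.a₄ * x' + E.a₆)) := by
      intro z; rw [hmap, eval_quadratic]
    have hder : ∀ z : Qbar, (P.map (ιmax A)).derivative.eval z
        = 2 * z + (E.a₁ * x' + E.a₃) := by
      intro z; rw [hmap, der_quadratic]
    have hPy : (P.map (ιmax A)).eval y ∈ A.nonunits := by
      have : (P.map (ιmax A)).eval y
          = (x - x') * (-(E.a₁ * y) + x ^ 2 + x * x' + x' ^ 2 + E.a₂ * (x + x') + E.a₄) := by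
        rw [hev]; linear_combination heq
      rw [this]
      refine nu_mul' ?_ hxx'
      exact add_mem (add_mem (add_mem (add_mem (add_mem
        (neg_mem (mul_mem hE.a₁ hy)) (pow_mem hx 2)) (mul_mem hx hx'A)) (pow_mem hx'A 2))
        (mul_mem hE.a₂ (add_mem hx hx'A))) hE.a₄
    obtain ⟨y₁, hy₁A, hy₁root, hyy₁⟩ := exists_root_near P hPm hy hPy
    have hsimple : (P.map (ιmax A)).derivative.eval y₁ ∉ A.nonunits := by
      intro hc
      apply hFy
      have : 2 * y + E.a₁ * x + E.a₃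
          = 2 * (y - y₁) + E.a₁ * (x - x') + (P.map (ιmax A)).derivative.eval y₁ := by
        rw [hder]; ring
      rw [this]
      exact nu_add (nu_add (nu_mul h2A hyy₁) (nu_mul hE.a₁ hxx')) hc
    have hy₁K : y₁ ∈ Kmax A := mem_Kmax_of_simple_root P hy₁A hy₁root hsimple
    have hns' : E.Nonsingular x' y₁ := by
      rw [nonsingular_iff]
      refine ⟨?_, Or.inr ?_⟩
      · rw [equation_iff]
        have := hy₁root
        rw [hev] at this
        linear_combination this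
      · intro hc
        apply hsimple
        rw [hder]
        have : 2 * y₁ + (E.a₁ * x' + E.a₃) = 0 := by
          linear_combination hc
        rw [this]; exact zero_mem_nu
    exact ⟨x', y₁, hns', hx'A, hy₁A, hx'K, hy₁K, hxx', hyy₁⟩

/-- **Consumer form of the unramified lift**: an integral point with nonsingular reduction
differs from an inertia-fixed point by a point of the kernel of reduction. -/
theorem exists_fixed_point_sub_inE1 {q : ℕ} (hq : q.Prime) (hA : A.LiesOverPrime q)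
    {W' : Affine ℚ} (hE : Fermat.Agent.S05.IntegralAt (W'⁄Qbar) A) {x y : Qbar}
    (h : (W'⁄Qbar).Nonsingular x y) (hx : x ∈ A) (hy : y ∈ A)
    (hns : ¬ ((W'⁄Qbar).a₁ * y - (3 * x ^ 2 + 2 * (W'⁄Qbar).a₂ * x + (W'⁄Qbar).a₄) ∈ A.nonunits ∧
      2 * y + (W'⁄Qbar).a₁ * x + (W'⁄Qbar).a₃ ∈ A.nonunits)) :
    ∃ P' : (W'⁄Qbar).Point, (∀ σ : Γ, σ ∈ A.inertiaSubgroupIn ℚ → σ • P' = P') ∧
      Fermat.Agent.S05.SameRed.InE1 (W'⁄Qbar) A (Point.some x y h - P') := by
  classical
  obtain ⟨x', y', h', hx'A, hy'A, hx'K, hy'K, hxx', hyy'⟩ :=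
    exists_unr_point hq hA hE (coeffsUnr_baseChange W' A) h hx hy hns
  refine ⟨Point.some x' y' h', ?_, ?_⟩
  · intro σ hσ
    rw [Fermat.Agent.S05.Inertia.smul_some]
    have e1 : σ x' = x' := apply_eq_of_mem_Kmax hx'K hσ
    have e2 : σ y' = y' := apply_eq_of_mem_Kmax hy'K hσ
    simp only [e1, e2]
  · exact Fermat.Agent.S05.SameRed.inE1_sub (W'⁄Qbar) A hE.a₁ hE.a₂ hE.a₃ h h' hx hx'A hy'A
      hxx' hyy' hns

end Fermat.Agent.S40.E.UnrLift
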