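/-
`Fermat.Agent.S40.E.Lift` — (E-HOPF), leaf [E4] (statement of helper28, board #2874/#2875):
**every point of `E(Q̄)` is congruent modulo the kernel of reduction at `A | p` to an inertia-fixed
point**, for a Weierstrass curve over `ℚ` integral at `A` with unit discriminant.

Proof: `P = 0` or `x(P) ∉ A`: take `Q = 0`.  Otherwise `P = (x, y)` is `A`-integral with nonsingular
reduction (`UnrLift.not_both_nonunits_of_disc`), and `UnrLift.exists_unr_point` (residue lift into
`A ∩ Kmax A` + Hensel in the strictly henselian ring `A ∩ Kmax A`, `S19/Base/HenselKmax`) gives an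
integral point over `Kmax A` with the same reduction; `S05/SameRed.inE1_sub` concludes.
-/
import Mathlib
import Fermat.Prelude.Def_FLTPrelim_Ramification
import Fermat.Agent.S05.KernelGeneral
import Fermat.Agent.S19.Coord.Defs
import Fermat.Agent.S40.E.Defs
import Fermat.Agent.S40.E.UnrLift

set_option autoImplicit false

namespace Fermat.Agent.S40.E.Lift

open WeierstrassCurve WeierstrassCurve.Affine Fermat.Agent.S05 Fermat.Agent.S19.Abs
open Fermat.Agent.S36.Descent.UnramLevel

/-- **every point is congruent modulo the kernel of reduction to an inertia-fixed point** -/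
theorem exists_lift (W : Affine ℚ) (A : ValuationSubring Qb) (p : ℕ) [Fact p.Prime]
    (hA : A.LiesOverPrime p) (hW : IntegralAt (W⁄Qb) A) (hΔ : (W⁄Qb).Δ ∉ A.nonunits)
    (P : (W⁄Qb).Point) :
    ∃ Q : (W⁄Qb).Point, (∀ σ ∈ A.inertiaSubgroupIn ℚ, σ • Q = Q) ∧ Asm.InE1 A (P - Q) := by
  classical
  have hp : p.Prime := Fact.out
  rcases P with _ | ⟨x, y, h⟩
  · -- the origin
    refine ⟨0, fun σ _ => rfl, ?_⟩
    rw [sub_zero]
    exact Asm.inE1_zero A
  · by_cases hx : x ∈ A
    · have hy : y ∈ A := UnrLift.y_mem_of_equation A hW h.1 hx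
      have hns := UnrLift.not_both_nonunits_of_disc A hW hΔ h.1 hx hy
      obtain ⟨x', y', h', hx'A, hy'A, hx'K, hy'K, hxx', hyy'⟩ :=
        UnrLift.exists_unr_point hp hA hW (UnrLift.coeffsUnr_baseChange W A) h hx hy hns
      refine ⟨Point.some x' y' h', ?_, ?_⟩
      · intro σ hσ
        rw [Inertia.smul_some]
        have e1 : σ x' = x' := apply_eq_of_mem_Kmax hx'K hσ
        have e2 : σ y' = y' := apply_eq_of_mem_Kmax hy'K hσ
        simp only [e1, e2]
      · rw [Asm.inE1_iff_sameRed]
        exact SameRed.inE1_sub (W⁄Qb) A hW.a₁ hW.a₂ hW.a₃ h h' hx hx'A hy'A hxx' hyy' hns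
    · -- already in the kernel of reduction
      refine ⟨0, fun σ _ => rfl, ?_⟩
      rw [sub_zero]
      exact Or.inr ⟨x, y, h, rfl, hx⟩

end Fermat.Agent.S40.E.Lift
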