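/-
(E-HOPF), utilities (owner: helper28): `lpow A p n = pⁿA` in terms of the valuation of `A`, the
Krull intersection `⋂ pⁿA = 0` for a valuation subring `A ⊂ ℚ̄` over `p`, and the subring
`ℚ ∩ A` of rational elements of `A` (fixed by the whole Galois group, so in `R^nr`).
-/
import Mathlib
import Fermat.Prelude.Def_FLTPrelim_Ramification
import Fermat.Agent.S19.Coord.Defs

set_option autoImplicit false

namespace Fermat.Agent.S40.E.Lpow

open Fermat.Agent.S19.Abs Fermat.Agent.S19.Coord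

variable (A : ValuationSubring Qb) {p : ℕ}

theorem natCast_ne_zero_of_prime (hp : p.Prime) : (p : Qb) ≠ 0 :=
  Nat.cast_ne_zero.2 hp.ne_zero

/-- `x ∈ pⁿA ↔ v(x) ≤ v(p)ⁿ` -/
theorem mem_lpow_iff_val (hp : (p : Qb) ≠ 0) {n : ℕ} {x : Qb} :
    x ∈ lpow A p n ↔ A.valuation x ≤ A.valuation (p : Qb) ^ n := by
  constructor
  · rintro ⟨a, ha, rfl⟩
    rw [map_mul, map_pow]
    calc A.valuation (p : Qb) ^ n * A.valuation a ≤ A.valuation (p : Qb) ^ n * 1 :=
          mul_le_mul_right ((A.valuation_le_one_iff a).2 ha) _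
      _ = A.valuation (p : Qb) ^ n := mul_one _
  · intro h
    have hpn : (p : Qb) ^ n ≠ 0 := pow_ne_zero n hp
    refine ⟨x / (p : Qb) ^ n, ?_, by field_simp⟩
    rw [← A.valuation_le_one_iff, map_div₀, map_pow]
    have hv : A.valuation (p : Qb) ^ n ≠ 0 := by
      rw [← map_pow]
      exact (A.valuation.ne_zero_iff).2 hpn
    exact div_le_one_of_le₀ h zero_le

/-- `v(p) < 1` -/
theorem val_p_lt_one (hA : A.LiesOverPrime p) : A.valuation (p : Qb) < 1 :=
  (ValuationSubring.mem_nonunits_iff A).1 hA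

/-- an integer prime to `p` is a unit of `A` -/
theorem val_natCast_eq_one (hp : p.Prime) (hA : A.LiesOverPrime p) {c : ℕ} (hc : ¬ p ∣ c) :
    A.valuation (c : Qb) = 1 := by
  have hcop : IsCoprime (c : ℤ) (p : ℤ) := by
    rw [Int.isCoprime_iff_gcd_eq_one, Int.gcd_natCast_natCast]
    exact (Nat.Coprime.symm ((Nat.Prime.coprime_iff_not_dvd hp).2 hc))
  obtain ⟨u, w, huw⟩ := hcop
  have h1 : ((u : ℤ) : Qb) * (c : Qb) = 1 - (w : Qb) * (p : Qb) := by
    have := congrArg (fun z : ℤ => (z : Qb)) huw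
    push_cast at this
    linear_combination this
  have hwp : A.valuation ((w : Qb) * (p : Qb)) < 1 := by
    rw [map_mul]
    calc A.valuation (w : Qb) * A.valuation (p : Qb) ≤ 1 * A.valuation (p : Qb) :=
          mul_le_mul_left ((A.valuation_le_one_iff _).2 (intCast_mem A w)) _
      _ = A.valuation (p : Qb) := one_mul _
      _ < 1 := val_p_lt_one A hA
  have h2 : A.valuation (((u : ℤ) : Qb) * (c : Qb)) = 1 := by
    rw [h1]
    exact Valuation.map_one_sub_of_lt _ hwp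
  rw [map_mul] at h2
  have hu : A.valuation ((u : ℤ) : Qb) ≤ 1 := (A.valuation_le_one_iff _).2 (intCast_mem A u)
  have hc1 : A.valuation (c : Qb) ≤ 1 := (A.valuation_le_one_iff _).2 (natCast_mem A c)
  refine le_antisymm hc1 ?_
  calc (1 : A.ValueGroup) = A.valuation ((u : ℤ) : Qb) * A.valuation (c : Qb) := h2.symm
    _ ≤ 1 * A.valuation (c : Qb) := mul_le_mul_left hu _
    _ = A.valuation (c : Qb) := one_mul _

/-- a nonzero natural number has valuation `v(p)^k` for some `k` -/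
theorem exists_val_natCast_eq (hp : p.Prime) (hA : A.LiesOverPrime p) {c : ℕ} (hc : c ≠ 0) :
    ∃ k : ℕ, A.valuation (c : Qb) = A.valuation (p : Qb) ^ k := by
  obtain ⟨k, c', hc', rfl⟩ := Nat.exists_eq_pow_mul_and_not_dvd hc p hp.ne_one
  refine ⟨k, ?_⟩
  push_cast
  rw [map_mul, map_pow, val_natCast_eq_one A hp hA hc', mul_one]

/-- elements of `ℚ̄` integral over `ℤ` lie in `A` -/
theorem mem_of_isIntegral_int {y : Qb} (hy : IsIntegral ℤ y) : y ∈ A := by
  have h1 : IsIntegral A y := hy.tower_top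
  obtain ⟨z, hz⟩ := (IsIntegrallyClosed.isIntegral_iff (R := A) (K := Qb)).1 h1
  rw [← hz]
  exact z.2

/-- **Krull intersection**: `⋂ pⁿA = 0` -/
theorem eq_zero_of_forall_mem_lpow (hp : p.Prime) (hA : A.LiesOverPrime p) {x : Qb}
    (h : ∀ n, x ∈ lpow A p n) : x = 0 := by
  by_contra hx
  have hp0 : (p : Qb) ≠ 0 := natCast_ne_zero_of_prime hp
  -- a nonzero integer multiple of `x⁻¹` is integral over `ℤ`, hence in `A`
  have halg : IsAlgebraic ℤ x⁻¹ :=
    (IsFractionRing.isAlgebraic_iff ℤ ℚ Qb).2 ((AlgebraicClosure.isAlgebraic ℚ).isAlgebraic _)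
  obtain ⟨c, hc0, hcint⟩ := halg.exists_integral_multiple
  have hmem : c • x⁻¹ ∈ A := mem_of_isIntegral_int A hcint
  -- so `v(c) ≤ v(x)`
  have hcx : A.valuation (c : Qb) ≤ A.valuation x := by
    have h1 : A.valuation (c • x⁻¹) ≤ 1 := (A.valuation_le_one_iff _).2 hmem
    rw [zsmul_eq_mul, map_mul, map_inv₀] at h1
    have hvx : A.valuation x ≠ 0 := (A.valuation.ne_zero_iff).2 hx
    have h2 := mul_le_mul_left h1 (A.valuation x)
    rwa [one_mul, mul_assoc, inv_mul_cancel₀ hvx, mul_one] at h2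
  -- `v(c) = v(|c|) = v(p)^k`
  have hnat : c.natAbs ≠ 0 := Int.natAbs_ne_zero.2 hc0
  obtain ⟨k, hk⟩ := exists_val_natCast_eq A hp hA hnat
  have hcabs : A.valuation (c : Qb) = A.valuation ((c.natAbs : ℕ) : Qb) := by
    rcases Int.natAbs_eq c with h1 | h1
    · conv_lhs => rw [h1]
      simp
    · conv_lhs => rw [h1]
      simp
  have hlt : A.valuation (p : Qb) ^ (k + 1) < A.valuation (p : Qb) ^ k := by
    have hv0 : (0 : A.ValueGroup) < A.valuation (p : Qb) ^ k := by
      rw [← map_pow]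
      exact (A.valuation.pos_iff).2 (pow_ne_zero k hp0)
    calc A.valuation (p : Qb) ^ (k + 1) = A.valuation (p : Qb) ^ k * A.valuation (p : Qb) :=
          pow_succ _ _
      _ < A.valuation (p : Qb) ^ k * 1 := by
          exact (mul_lt_mul_iff_right₀ hv0).2 (val_p_lt_one A hA)
      _ = A.valuation (p : Qb) ^ k := mul_one _
  have h3 := (mem_lpow_iff_val A hp0).1 (h (k + 1))
  have h4 : A.valuation (p : Qb) ^ k ≤ A.valuation (p : Qb) ^ (k + 1) := by
    calc A.valuation (p : Qb) ^ k = A.valuation (c : Qb) := by rw [hcabs, hk]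
      _ ≤ A.valuation x := hcx
      _ ≤ _ := h3
  exact absurd h4 (not_le.2 hlt)

/-! ### the rational elements of `A` -/

/-- `ℚ ∩ A` as a subring of `ℚ̄` -/
noncomputable def ratSub : Subring Qb :=
  (algebraMap ℚ Qb).range ⊓ A.toSubring

theorem mem_ratSub_iff {x : Qb} : x ∈ ratSub A ↔ (∃ q : ℚ, algebraMap ℚ Qb q = x) ∧ x ∈ A :=
  Iff.rfl

theorem mem_of_mem_ratSub {x : Qb} (hx : x ∈ ratSub A) : x ∈ A := hx.2

/-- rational elements of `A` are in `R^nr` -/
theorem isUnr_of_mem_ratSub {x : Qb} (hx : x ∈ ratSub A) : IsUnr A x := by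
  obtain ⟨⟨q, rfl⟩, hA⟩ := hx
  exact ⟨hA, fun σ _ => σ.commutes q⟩

end Fermat.Agent.S40.E.Lpow
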