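/-
`Fermat.Agent.S40.E.Stab` — (E-HOPF), wiring leaf (statements of helper28, board #2914):
the Galois action on `E(Q̄)` as an `IsGalAction`, open stabilisers (every point is defined over a
number field), and the subgroup of inertia-fixed points with its stability under the decomposition
group.
-/
import Mathlib
import Fermat.Prelude.Def_FLTPrelim_Ramification
import Fermat.Agent.S19.Coord.Defs
import Fermat.Agent.S19.Order.UnrPoly
import Fermat.Agent.S05.Inertia

set_option autoImplicit false

namespace Fermat.Agent.S40.E.Stab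

open WeierstrassCurve WeierstrassCurve.Affine Fermat.Agent.S19.Abs

variable (W : Affine ℚ)

/-- the Galois action on the points of `E` over `ℚ̄` -/
noncomputable def actE (σ : GQ) (P : (W⁄Qb).Point) : (W⁄Qb).Point := σ • P

theorem actE_def (σ : GQ) (P : (W⁄Qb).Point) : actE W σ P = σ • P := rfl

theorem isGalAction_actE : IsGalAction (actE W) where
  one y := one_smul GQ y
  mul σ τ y := mul_smul σ τ y
  add σ y y' := smul_add σ y y'

/-- every point is defined over a number field: open stabilisers -/
theorem exists_finiteDimensional_fixing (P : (W⁄Qb).Point) :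
    ∃ E : IntermediateField ℚ Qb, FiniteDimensional ℚ E ∧
      ∀ σ : GQ, (∀ x ∈ E, σ x = x) → actE W σ P = P := by
  classical
  rcases P with _ | ⟨x, y, h⟩
  · exact ⟨⊥, inferInstance, fun σ _ => rfl⟩
  · have : Algebra.IsAlgebraic ℚ Qb := AlgebraicClosure.isAlgebraic ℚ
    have hx : IsIntegral ℚ x := (Algebra.IsAlgebraic.isAlgebraic x).isIntegral
    have hy : IsIntegral ℚ y := (Algebra.IsAlgebraic.isAlgebraic y).isIntegral
    refine ⟨IntermediateField.adjoin ℚ ({x, y} : Set Qb), ?_, ?_⟩
    · apply IntermediateField.finiteDimensional_adjoin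
      intro z hz
      rcases hz with rfl | rfl
      · exact hx
      · exact hy
    · intro σ hσ
      have e1 : σ x = x := hσ x (IntermediateField.subset_adjoin ℚ _ (by simp))
      have e2 : σ y = y := hσ y (IntermediateField.subset_adjoin ℚ _ (by simp))
      rw [actE_def, Fermat.Agent.S05.Inertia.smul_some]
      simp only [e1, e2]

/-- the inertia-fixed points -/
noncomputable def unrPts (A : ValuationSubring Qb) : AddSubgroup (W⁄Qb).Point where
  carrier := {P | ∀ σ ∈ A.inertiaSubgroupIn ℚ, σ • P = P}
  zero_mem' := fun σ _ => Fermat.Agent.S05.Inertia.smul_zero_point σ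
  add_mem' := by
    intro P Q hP hQ σ hσ
    rw [Fermat.Agent.S05.Inertia.smul_add_point, hP σ hσ, hQ σ hσ]
  neg_mem' := by
    intro P hP σ hσ
    rw [Fermat.Agent.S05.Inertia.smul_neg_point, hP σ hσ]

@[simp] theorem mem_unrPts {A : ValuationSubring Qb} {P : (W⁄Qb).Point} :
    P ∈ unrPts W A ↔ ∀ σ ∈ A.inertiaSubgroupIn ℚ, σ • P = P := Iff.rfl

/-- the inertia-fixed points are stable under the decomposition group (`I_A` is normal in `D_A`) -/
theorem unrPts_stable (A : ValuationSubring Qb) :
    ∀ σ ∈ A.decompositionSubgroup ℚ, ∀ z ∈ unrPts W A, actE W σ z ∈ unrPts W A := by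
  intro σ hσ z hz τ hτ
  have h1 := hz _ (Fermat.Agent.S19.Order.UnrPoly.conj_mem_inertia hσ hτ)
  -- (σ⁻¹ τ σ) z = z  ⇒  τ (σ z) = σ z
  rw [actE_def]
  have h2 : (σ⁻¹ * τ * σ) • z = σ⁻¹ • (τ • (σ • z)) := by
    rw [mul_smul, mul_smul]
  rw [h2] at h1
  have h3 := congrArg (fun Q => σ • Q) h1
  simp only [smul_inv_smul] at h3
  exact h3

end Fermat.Agent.S40.E.Stab
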