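/-
(E-HOPF), the contract (owner: helper28).  **The `S19.Coord.CoordSystem` of an elliptic curve at a
prime of good reduction.**

`W` a Weierstrass curve over `ℚ`, `A ⊂ ℚ̄` a valuation subring over `p` at which `W` is integral
with unit discriminant.  `Jb = E(ℚ̄)` with its Galois action, `g = 1`, coordinate
`t = -x / y` (an honest function), `J1 =` kernel of reduction, `U =` inertia-fixed points,
`IsCoord n z a ↔ z ∈ J1 ∧ a 0 ∈ 𝔪_A ∧ a 0 - t z ∈ pⁿA`; strict equivariance (`Ψ = X`); the group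
law `(C5)` is `Law.exists_addPoly`.
-/
import Mathlib
import Fermat.Prelude.Def_FLTPrelim_Ramification
import Fermat.Agent.S05.KernelGeneral
import Fermat.Agent.S05.Inertia
import Fermat.Agent.S19.Coord.Defs
import Fermat.Agent.S19.Coord.OfLevels
import Fermat.Agent.S19.Order.UnrPoly
import Fermat.Agent.S40.E.Defs
import Fermat.Agent.S40.E.Lpow
import Fermat.Agent.S40.E.Approx
import Fermat.Agent.S40.E.Chart
import Fermat.Agent.S40.E.Law
import Fermat.Agent.S40.E.Reduction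
import Fermat.Agent.S40.E.Lift
import Fermat.Agent.S40.E.Stab

set_option autoImplicit false

namespace Fermat.Agent.S40.E.Coord

open WeierstrassCurve WeierstrassCurve.Affine Fermat.Agent.S05 Fermat.Agent.S19.Abs
  Fermat.Agent.S19.Coord Fermat.Agent.S19.Order Fermat.Agent.S40.E.Defs

variable (W : Affine ℚ) (A : ValuationSubring Qb) (p : ℕ)

/-- `a` represents the level-`n` coordinate of `z`: `z` is in the kernel of reduction, `a 0` is a
non-unit and `a 0 ≡ t(z)` modulo `pⁿA`. -/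
def IsCoordE (n : ℕ) (z : (W⁄Qb).Point) (a : Fin 1 → Qb) : Prop :=
  Asm.InE1 A z ∧ a 0 ∈ A.nonunits ∧ a 0 - tc z ∈ lpow A p n

variable {W A p}

theorem nonunits_mem {x : Qb} (hx : x ∈ A.nonunits) : x ∈ A :=
  (A.valuation_le_one_iff x).1 ((ValuationSubring.mem_nonunits_iff A).1 hx).le

theorem IsCoordE.nonunit {n : ℕ} {z : (W⁄Qb).Point} {a : Fin 1 → Qb}
    (h : IsCoordE W A p n z a) (i : Fin 1) : a i ∈ A.nonunits := by
  rw [Subsingleton.elim i 0]
  exact h.2.1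

theorem isCoordE_exists_rep (hW : IntegralAt (W⁄Qb) A) {z : (W⁄Qb).Point}
    (hz : Asm.InE1 A z) (n : ℕ) : ∃ a, IsCoordE W A p n z a :=
  ⟨fun _ => tc z, hz, Chart.tc_mem_nonunits A hW hz, by
    rw [sub_self]
    exact UnrPoly.zero_mem_lpow n⟩

theorem IsCoordE.congr {n : ℕ} {z : (W⁄Qb).Point} {a a' : Fin 1 → Qb}
    (h : IsCoordE W A p n z a) (h' : IsCoordE W A p n z a') (i : Fin 1) :
    a i - a' i ∈ lpow A p n := by
  rw [Subsingleton.elim i 0]
  have e : a 0 - a' 0 = (a 0 - tc z) - (a' 0 - tc z) := by ring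
  rw [e]
  exact UnrPoly.sub_mem_lpow h.2.2 h'.2.2

theorem IsCoordE.of_congr {n : ℕ} {z : (W⁄Qb).Point} {a a' : Fin 1 → Qb}
    (h : IsCoordE W A p n z a) (ha' : ∀ i, a' i ∈ A.nonunits)
    (hc : ∀ i, a i - a' i ∈ lpow A p n) : IsCoordE W A p n z a' := by
  refine ⟨h.1, ha' 0, ?_⟩
  have e : a' 0 - tc z = (a 0 - tc z) - (a 0 - a' 0) := by ring
  rw [e]
  exact UnrPoly.sub_mem_lpow h.2.2 (hc 0)

theorem IsCoordE.smul {σ : GQ} (hσ : σ ∈ A.decompositionSubgroup ℚ) {n : ℕ}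
    {z : (W⁄Qb).Point} {a : Fin 1 → Qb} (h : IsCoordE W A p n z a) :
    IsCoordE W A p n (σ • z) (fun i => σ (a i)) := by
  refine ⟨Reduction.inE1_smul A hσ h.1, ?_, ?_⟩
  · exact Inertia.apply_mem_nonunits_of_mem_decompositionSubgroup A hσ h.2.1
  · rw [Reduction.tc_smul, ← map_sub]
    exact OfLevels.apply_mem_lpow hσ h.2.2

theorem IsCoordE.mono {n : ℕ} {z : (W⁄Qb).Point} {a : Fin 1 → Qb}
    (h : IsCoordE W A p (n + 1) z a) : IsCoordE W A p n z a :=
  ⟨h.1, h.2.1, UnrPoly.lpow_mono (Nat.le_succ n) h.2.2⟩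

theorem isCoordE_zero (n : ℕ) : IsCoordE W A p n 0 0 := by
  refine ⟨Asm.inE1_zero A, OfLevels.zero_mem_nonunits, ?_⟩
  simp only [Pi.zero_apply, tc_zero, sub_self]
  exact UnrPoly.zero_mem_lpow n

theorem isCoordE_separated (hp : p.Prime) (hA : A.LiesOverPrime p)
    (hW : IntegralAt (W⁄Qb) A) {z : (W⁄Qb).Point} (hz : Asm.InE1 A z)
    (h : ∀ n, IsCoordE W A p n z 0) : z = 0 := by
  refine Chart.eq_zero_of_tc_eq_zero A hW hz ?_
  refine Lpow.eq_zero_of_forall_mem_lpow A hp hA fun n => ?_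
  have h1 := (h n).2.2
  simp only [Pi.zero_apply, zero_sub] at h1
  have h2 := UnrPoly.neg_mem_lpow h1
  rwa [neg_neg] at h2

theorem isCoordE_rational_stab (hW : IntegralAt (W⁄Qb) A) {z : (W⁄Qb).Point}
    (hz : Asm.InE1 A z) (n : ℕ) :
    ∃ a, IsCoordE W A p n z a ∧
      ∀ σ ∈ A.inertiaSubgroupIn ℚ, σ • z = z → ∀ i, σ (a i) = a i := by
  obtain ⟨a, ha⟩ : ∃ a, a = fun _ : Fin 1 => tc z := ⟨_, rfl⟩
  refine ⟨a, ?_, fun σ _ hσz i => ?_⟩
  · subst ha
    exact ⟨hz, Chart.tc_mem_nonunits A hW hz, by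
      rw [sub_self]
      exact UnrPoly.zero_mem_lpow n⟩
  · subst ha
    show σ (tc z) = tc z
    rw [← Reduction.tc_smul, hσz]

/-- the coefficients of `W⁄ℚ̄` are rational elements of `A` -/
theorem coeffIn_ratSub (hW : IntegralAt (W⁄Qb) A) : Law.CoeffIn (W⁄Qb) (Lpow.ratSub A) where
  a₁ := ⟨⟨W.a₁, rfl⟩, hW.a₁⟩
  a₂ := ⟨⟨W.a₂, rfl⟩, hW.a₂⟩
  a₃ := ⟨⟨W.a₃, rfl⟩, hW.a₃⟩
  a₄ := ⟨⟨W.a₄, rfl⟩, hW.a₄⟩
  a₆ := ⟨⟨W.a₆, rfl⟩, hW.a₆⟩

/-- **(C5)**: the group law is polynomial over `R^nr` modulo `pⁿ`, on points of bounded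
ramification. -/
theorem isCoordE_law (hp : p.Prime) (hW : IntegralAt (W⁄Qb) A) (n e : ℕ) :
    ∃ F : Fin 1 → MvPolynomial (Fin 1 ⊕ Fin 1) Qb, (∀ i, UnrCoeffs A (F i)) ∧
      ∀ {z z' : (W⁄Qb).Point} {a a' : Fin 1 → Qb}, IsCoordE W A p n z a → IsCoordE W A p n z' a' →
        (∀ i, a i ^ e ∈ lpow A p 1) → (∀ i, a' i ^ e ∈ lpow A p 1) →
        IsCoordE W A p n (z + z') (fun i => MvPolynomial.aeval (Sum.elim a a') (F i)) := by
  have hp0 : (p : Qb) ≠ 0 := Lpow.natCast_ne_zero_of_prime hp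
  obtain ⟨F, hFR, hF⟩ := Law.exists_addPoly A hW (Lpow.ratSub A)
    (fun r hr => Lpow.mem_of_mem_ratSub A hr) (coeffIn_ratSub hW) (e * n + 1)
  have hFA : ∀ m, F.coeff m ∈ A := fun m => Lpow.mem_of_mem_ratSub A (hFR m)
  refine ⟨fun _ => F, fun _ m => Lpow.isUnr_of_mem_ratSub A (hFR m), ?_⟩
  intro z z' a a' hz hz' hae hae'
  -- notation
  set t₁ : Qb := tc z with ht₁
  set t₂ : Qb := tc z' with ht₂
  set b : Fin 1 ⊕ Fin 1 → Qb := Sum.elim a a' with hb
  set b₀ : Fin 1 ⊕ Fin 1 → Qb := Sum.elim (fun _ => t₁) (fun _ => t₂) with hb₀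
  have ht₁m : t₁ ∈ A.nonunits := Chart.tc_mem_nonunits A hW hz.1
  have ht₂m : t₂ ∈ A.nonunits := Chart.tc_mem_nonunits A hW hz'.1
  have hbA : ∀ i, b i ∈ A := by
    rintro (i | i)
    · exact nonunits_mem (hz.nonunit i)
    · exact nonunits_mem (hz'.nonunit i)
  have hb₀A : ∀ i, b₀ i ∈ A := by
    rintro (i | i)
    · exact nonunits_mem ht₁m
    · exact nonunits_mem ht₂m
  have hdiff : ∀ i, b i - b₀ i ∈ lpow A p n := by
    rintro (i | i)
    · show a i - t₁ ∈ lpow A p n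
      rw [Subsingleton.elim i 0]
      exact hz.2.2
    · show a' i - t₂ ∈ lpow A p n
      rw [Subsingleton.elim i 0]
      exact hz'.2.2
  -- the three pieces
  set m : A.ValueGroup := max (A.valuation t₁) (A.valuation t₂) with hm
  have hm1 : m < 1 := max_lt ((ValuationSubring.mem_nonunits_iff A).1 ht₁m)
    ((ValuationSubring.mem_nonunits_iff A).1 ht₂m)
  have hzz : Asm.InE1 A (z + z') := KernelGeneral.inE1_add A hW z z' hz.1 hz'.1
  have h1 : A.valuation (tc (z + z') - MvPolynomial.aeval b₀ F) ≤ m ^ (e * n + 1) :=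
    hF z z' hz.1 hz'.1
  have h1' : A.valuation (MvPolynomial.aeval b₀ F - tc (z + z')) ≤ m ^ (e * n + 1) := by
    rw [← Valuation.map_neg, neg_sub]
    exact h1
  have h2 : MvPolynomial.aeval b F - MvPolynomial.aeval b₀ F ∈ lpow A p n :=
    UnrPoly.aeval_sub_aeval_mem_lpow hFA hbA hb₀A hdiff
  -- `m ^ (e n + 1) ≤ v(p) ^ n`
  have hmle : m ^ (e * n + 1) ≤ A.valuation (p : Qb) ^ n := by
    rcases Nat.eq_zero_or_pos n with rfl | hn
    · rw [pow_zero]
      exact pow_le_one₀ zero_le hm1.le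
    · have hte₁ : t₁ ^ e ∈ lpow A p 1 :=
        OfLevels.pow_mem_lpow_of_congr hn (nonunits_mem hz.2.1) (nonunits_mem ht₁m) hz.2.2 (hae 0)
      have hte₂ : t₂ ^ e ∈ lpow A p 1 :=
        OfLevels.pow_mem_lpow_of_congr hn (nonunits_mem hz'.2.1) (nonunits_mem ht₂m) hz'.2.2
          (hae' 0)
      have hv₁ := (Lpow.mem_lpow_iff_val A hp0).1 hte₁
      have hv₂ := (Lpow.mem_lpow_iff_val A hp0).1 hte₂
      rw [map_pow, pow_one] at hv₁ hv₂
      have hme : m ^ e ≤ A.valuation (p : Qb) := by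
        rcases max_cases (A.valuation t₁) (A.valuation t₂) with ⟨h, -⟩ | ⟨h, -⟩
        · rw [hm, h]; exact hv₁
        · rw [hm, h]; exact hv₂
      calc m ^ (e * n + 1) ≤ m ^ (e * n) := pow_le_pow_of_le_one zero_le hm1.le (Nat.le_succ _)
        _ = (m ^ e) ^ n := pow_mul m e n
        _ ≤ A.valuation (p : Qb) ^ n := pow_le_pow_left₀ zero_le hme n
  refine ⟨hzz, ?_, ?_⟩
  · -- non-unit
    show MvPolynomial.aeval b F ∈ A.nonunits
    rw [ValuationSubring.mem_nonunits_iff]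
    have hγ : ∀ i, A.valuation (b i - b₀ i) ≤
        max (A.valuation (a 0 - t₁)) (A.valuation (a' 0 - t₂)) := by
      rintro (i | i)
      · rw [Subsingleton.elim i 0]; exact le_max_left _ _
      · rw [Subsingleton.elim i 0]; exact le_max_right _ _
    have h3 := Approx.val_aeval_sub_aeval_le F hFA b b₀ hbA hb₀A _ hγ
    have hγ1 : max (A.valuation (a 0 - t₁)) (A.valuation (a' 0 - t₂)) < 1 := by
      refine max_lt ?_ ?_
      · exact (ValuationSubring.mem_nonunits_iff A).1 (A.nonunits.sub_mem hz.2.1 ht₁m)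
      · exact (ValuationSubring.mem_nonunits_iff A).1 (A.nonunits.sub_mem hz'.2.1 ht₂m)
    have e1 : MvPolynomial.aeval b F = (MvPolynomial.aeval b F - MvPolynomial.aeval b₀ F) +
        ((MvPolynomial.aeval b₀ F - tc (z + z')) + tc (z + z')) := by ring
    rw [e1]
    refine lt_of_le_of_lt (Valuation.map_add _ _ _) (max_lt (lt_of_le_of_lt h3 hγ1) ?_)
    refine lt_of_le_of_lt (Valuation.map_add _ _ _) (max_lt ?_ ?_)
    · refine lt_of_le_of_lt h1' ?_
      exact lt_of_le_of_lt (pow_le_of_le_one zero_le hm1.le (Nat.succ_ne_zero _)) hm1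
    · exact (ValuationSubring.mem_nonunits_iff A).1 (Chart.tc_mem_nonunits A hW hzz)
  · -- congruence
    show MvPolynomial.aeval b F - tc (z + z') ∈ lpow A p n
    have e1 : MvPolynomial.aeval b F - tc (z + z') =
        (MvPolynomial.aeval b F - MvPolynomial.aeval b₀ F) +
          (MvPolynomial.aeval b₀ F - tc (z + z')) := by ring
    rw [e1]
    refine UnrPoly.add_mem_lpow h2 ?_
    rw [Lpow.mem_lpow_iff_val A hp0]
    exact h1'.trans hmle

/-- **The contract `S19.Coord.CoordSystem` for an elliptic curve at a prime of good reduction.** -/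
noncomputable def coordSystem (hp : p.Prime) (hA : A.LiesOverPrime p) (hW : IntegralAt (W⁄Qb) A)
    (hΔ : (W⁄Qb).Δ ∉ A.nonunits) : CoordSystem p A (W⁄Qb).Point (Stab.actE W) where
  g := 1
  J1 := Reduction.kerRed A hW
  U := Stab.unrPts W A
  IsCoord := IsCoordE W A p
  mem_J1 := fun h => (Reduction.mem_kerRed A hW).2 h.1
  nonunit := fun h i => h.nonunit i
  exists_rep := fun hz n => isCoordE_exists_rep hW ((Reduction.mem_kerRed A hW).1 hz) n
  congr := fun h h' i => h.congr h' i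
  of_congr := fun h ha' hc => h.of_congr ha' hc
  J1_stable := fun σ hσ z hz =>
    (Reduction.mem_kerRed A hW).2 (Reduction.inE1_smul A hσ ((Reduction.mem_kerRed A hW).1 hz))
  equivariant := fun σ hσ n e _ =>
    ⟨fun i => MvPolynomial.X i, fun i => UnrPoly.unrCoeffs_X i, fun {z a} h _ => by
      simp only [MvPolynomial.aeval_X]
      exact h.smul hσ⟩
  equivariant_inertia := fun σ hσ {n z a} h =>
    h.smul (Inertia.mem_decompositionSubgroup_of_mem_inertiaSubgroupIn A hσ)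
  mono := fun h => h.mono
  zero := isCoordE_zero
  law := fun n e _ => isCoordE_law hp hW n e
  separated := fun hz h => isCoordE_separated hp hA hW ((Reduction.mem_kerRed A hW).1 hz) h
  inertia_sub_mem := fun σ hσ y => (Reduction.mem_kerRed A hW).2 (Reduction.inE1_smul_sub A hW hΔ hσ y)
  U_fixed := fun σ hσ z hz => (Stab.mem_unrPts W).1 hz σ hσ
  U_stable := Stab.unrPts_stable W A
  exists_lift := fun y => by
    have : Fact p.Prime := ⟨hp⟩
    obtain ⟨Q, hQ, hPQ⟩ := Lift.exists_lift W A p hA hW hΔ y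
    exact ⟨Q, (Stab.mem_unrPts W).2 hQ, (Reduction.mem_kerRed A hW).2 hPQ⟩
  rational_stab := fun hz n => isCoordE_rational_stab hW ((Reduction.mem_kerRed A hW).1 hz) n

end Fermat.Agent.S40.E.Coord
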