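/-
(E-HOPF), the deliverable (owner: helper28).  **Finite Galois-stable subgroups of an elliptic curve
over `ℚ` carry a Hopf order over `ℤ_(p)` at a prime `p` of good reduction; if they are killed by
`p` (`p` odd), their field of points over `ℚ_p` is "peu ramifiée".**

`exists_isHopfOrder` : the `S19.Coord.CoordSystem` of `Coord.lean` + the order layer
`S19.Order.OrderTargetProof.orderTarget`;
`exists_isPeuRamifie` : + `S56.Flat.PointsField.fontaineProp_pointsField` (Fontaine's property of
the points of a Hopf order killed by `p`) + `S56.Flat.KummerBound.Main.isPeuRamifie_of_fontaineProp`.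
-/
import Mathlib
import Fermat.Agent.S19.Order.OrderTargetProof
import Fermat.Agent.S56.Flat.PointsField
import Fermat.Agent.S56.Flat.KummerBound.Main
import Fermat.Agent.S40.E.Coord

set_option autoImplicit false

namespace Fermat.Agent.S40.E.Main

open WeierstrassCurve WeierstrassCurve.Affine Fermat.Agent.S05 Fermat.Agent.S19.Abs
  Fermat.Agent.S19.Coord Fermat.Agent.S19.Order Fermat.Agent.S56.Flat

variable (W : Affine ℚ) (p : ℕ) [Fact p.Prime]

/-- the Galois action on a Galois-stable subgroup of `E(ℚ̄)` -/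
noncomputable def actSub (M : AddSubgroup (W⁄Qb).Point)
    (hM : ∀ σ : GQ, ∀ y ∈ M, Stab.actE W σ y ∈ M) (σ : GQ) (y : M) : M :=
  ⟨Stab.actE W σ y, hM σ y y.2⟩

theorem isGalAction_actSub (M : AddSubgroup (W⁄Qb).Point)
    (hM : ∀ σ : GQ, ∀ y ∈ M, Stab.actE W σ y ∈ M) : IsGalAction (actSub W M hM) where
  one := fun y => Subtype.ext ((Stab.isGalAction_actE W).one y)
  mul := fun σ τ y => Subtype.ext ((Stab.isGalAction_actE W).mul σ τ y)
  add := fun σ y y' => Subtype.ext ((Stab.isGalAction_actE W).add σ y y')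

/-- **(E-HOPF).**  `W` a Weierstrass curve over `ℚ`, integral with unit discriminant at a
valuation subring `A ⊂ ℚ̄` over `p`: every finite Galois-stable subgroup `M` of `E(ℚ̄)` carries a
Hopf order over `ℤ_(p)`. -/
theorem exists_isHopfOrder (A : ValuationSubring Qb) (hA : A.LiesOverPrime p)
    (hW : IntegralAt (W⁄Qb) A) (hΔ : (W⁄Qb).Δ ∉ A.nonunits)
    (M : AddSubgroup (W⁄Qb).Point) (hfin : Finite M)
    (hM : ∀ σ : GQ, ∀ y ∈ M, Stab.actE W σ y ∈ M) :
    ∃ Hs : Subalgebra (GaloisRep.ratLocalizedAt p) (M → Qb),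
      IsHopfOrder p (actSub W M hM) Hs :=
  OrderTargetProof.orderTarget p A hA (W⁄Qb).Point (Stab.actE W) (Stab.isGalAction_actE W)
    (Coord.coordSystem Fact.out hA hW hΔ) (Stab.exists_finiteDimensional_fixing W) M hfin hM

/-- **(E-HOPF), Kummer form.**  If moreover `p` is odd and `M` is killed by `p`, the field of
points of the Hopf order over `ℚ_p` is "peu ramifiée". -/
theorem exists_isPeuRamifie (hp2 : p ≠ 2) (A : ValuationSubring Qb) (hA : A.LiesOverPrime p)
    (hW : IntegralAt (W⁄Qb) A) (hΔ : (W⁄Qb).Δ ∉ A.nonunits)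
    (M : AddSubgroup (W⁄Qb).Point) (hfin : Finite M)
    (hM : ∀ σ : GQ, ∀ y ∈ M, Stab.actE W σ y ∈ M) (hpM : ∀ y ∈ M, p • y = 0) :
    ∃ Hs : Subalgebra (GaloisRep.ratLocalizedAt p) (M → Qb),
      IsHopfOrder p (actSub W M hM) Hs ∧
        KummerBound.IsPeuRamifie p (PointsField.pointsField p Hs) := by
  obtain ⟨Hs, hHs⟩ := exists_isHopfOrder W p A hA hW hΔ M hfin hM
  refine ⟨Hs, hHs, ?_⟩
  have : Finite M := hfin
  have : FiniteDimensional ℚ_[p] (PointsField.pointsField p Hs) :=
    PointsField.finiteDimensional_pointsField hHs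
  have : IsGalois ℚ_[p] (PointsField.pointsField p Hs) := PointsField.isGalois_pointsField hHs
  refine KummerBound.Main.isPeuRamifie_of_fontaineProp hp2 _ ?_
  refine PointsField.fontaineProp_pointsField (isGalAction_actSub W M hM) hHs fun y => ?_
  exact Subtype.ext (by
    rw [AddSubgroup.coe_nsmul, AddSubgroup.coe_zero]
    exact hpM y y.2)

end Fermat.Agent.S40.E.Main
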