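/-
S40 / row 62, leaf [E1-d](β) (helper24): **"peu ramifiée" survives a finite unramified enlargement.**

`FontaineProp` (S56 `Flat/KummerBound/Defs`) is trivially closed under compositum and holds for
every finite unramified extension of `ℚ_p`; hence, by [FL-B]
(`KummerBound.Main.isPeuRamifie_of_fontaineProp`), `L ⊔ E₀` is peu ramifiée for every finite Galois
`L/ℚ_p` with Fontaine's property and every finite unramified `E₀`.  No Hopf order on
`E[p] ⊕ (étale)` is needed.

* `fontaineProp_sup`, `fontaineProp_of_isUnramifiedIn`;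
* `isPeuRamifie_sup_unram`;
* `exists_isPeuRamifie_sup` : the (E-HOPF) deliverable `S40.E.Main.exists_isPeuRamifie` with the
  unramified enlargement (the hypothesis `hPeu` of `S40/P/PeuLocal`).
-/
import Mathlib
import Fermat.Agent.S56.Flat.KummerBound.Main
import Fermat.Agent.S40.E.Main

set_option autoImplicit false
set_option linter.style.haveILetI false

namespace Fermat.Agent.S40.E.PeuUnram

open IsLocalRing IntermediateField Fermat.Agent.S55.LocalInt Fermat.Agent.S55.Local
  Fermat.Agent.S55.Local.Unram Fermat.Agent.S56.Flat.KummerBound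

variable {p : ℕ} [Fact p.Prime]

local notation "Ω" => PadicAlgCl p

/-- Fontaine's property is closed under compositum. -/
theorem fontaineProp_sup {L₁ L₂ : IntermediateField ℚ_[p] Ω} (h₁ : FontaineProp p L₁)
    (h₂ : FontaineProp p L₂) : FontaineProp p (L₁ ⊔ L₂) := by
  intro E _ e k he hk ⟨f⟩
  refine sup_le ?_ ?_
  · exact h₁ E e k he hk ⟨f.comp (intIncl ℤ_[p] (le_sup_left : L₁ ≤ L₁ ⊔ L₂)).toRingHom⟩
  · exact h₂ E e k he hk ⟨f.comp (intIncl ℤ_[p] (le_sup_right : L₂ ≤ L₁ ⊔ L₂)).toRingHom⟩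

/-- A finite unramified extension of `ℚ_p` has Fontaine's property: a ring homomorphism
`𝒪_{E₀} → 𝒪_E / 𝔪_E ^ k` (`k ≥ 1`) induces an embedding of residue fields, hence `E₀ ≤ E`. -/
theorem fontaineProp_of_isUnramifiedIn {E₀ : IntermediateField ℚ_[p] Ω}
    (hE₀ : IsUnramifiedIn ℤ_[p] E₀) : FontaineProp p E₀ := by
  intro E _ e k he hk ⟨f⟩
  haveI : FiniteDimensional ℚ_[p] E₀ := hE₀.finiteDimensional
  have hp : p.Prime := Fact.out
  -- `1 ≤ k`
  have hk1 : 1 ≤ k := by
    rcases Nat.eq_zero_or_pos k with h0 | h0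
    · subst h0; simp at hk
    · exact h0
  -- the composite to the residue field of `E`
  have hle : maximalIdeal (integralClosure ℤ_[p] E) ^ k ≤ maximalIdeal (integralClosure ℤ_[p] E) := by
    calc maximalIdeal (integralClosure ℤ_[p] E) ^ k
        ≤ maximalIdeal (integralClosure ℤ_[p] E) ^ 1 := Ideal.pow_le_pow_right hk1
      _ = maximalIdeal (integralClosure ℤ_[p] E) := pow_one _
  let h : integralClosure ℤ_[p] E₀ →+* ResidueField (integralClosure ℤ_[p] E) :=
    (Ideal.Quotient.factor hle).comp f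
  -- `p = 0` in the residue field of `E`
  have hp0 : ((p : ℕ) : ResidueField (integralClosure ℤ_[p] E)) = 0 := by
    have := natCast_mem_maximalIdeal (q := p) E
    rw [← map_natCast (residue (integralClosure ℤ_[p] E)), residue_eq_zero_iff]
    exact this
  -- `h` kills the maximal ideal of `𝒪_{E₀}` = `(p)`
  have hmax : maximalIdeal (integralClosure ℤ_[p] E₀) =
      Ideal.span {((p : ℕ) : integralClosure ℤ_[p] E₀)} := by
    rw [← map_maximalIdeal_eq_span (q := p) E₀]
    exact (eq_maximalIdeal hE₀.2).symm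
  have hkill : ∀ a ∈ maximalIdeal (integralClosure ℤ_[p] E₀), h a = 0 := by
    intro a ha
    rw [hmax, Ideal.mem_span_singleton'] at ha
    obtain ⟨c, rfl⟩ := ha
    rw [map_mul, map_natCast, hp0, mul_zero]
  let g : ResidueField (integralClosure ℤ_[p] E₀) →+* ResidueField (integralClosure ℤ_[p] E) :=
    Ideal.Quotient.lift _ h hkill
  -- `g` is an algebra homomorphism over the residue field of `ℤ_p`
  have hgres : ∀ a : integralClosure ℤ_[p] E₀, g (residue _ a) = h a := fun a => rfl
  have hgalg : ∀ c : ResidueField ℤ_[p],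
      g (algebraMap (ResidueField ℤ_[p]) (ResidueField (integralClosure ℤ_[p] E₀)) c)
        = algebraMap (ResidueField ℤ_[p]) (ResidueField (integralClosure ℤ_[p] E)) c := by
    intro c
    -- both sides are ring homomorphisms out of the prime field `𝔽_p = ResidueField ℤ_p`
    obtain ⟨c, rfl⟩ := residue_surjective c
    obtain ⟨n, hn⟩ : ∃ n : ℕ, residue ℤ_[p] c = ((n : ℕ) : ResidueField ℤ_[p]) := by
      obtain ⟨n, hn⟩ := PadicInt.exists_mem_range (x := c) (p := p)
      refine ⟨n, ?_⟩
      have h1 : c - (n : ℤ_[p]) ∈ maximalIdeal ℤ_[p] := hn.2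
      have h2 := (residue_eq_zero_iff _).mpr h1
      rw [map_sub, sub_eq_zero, map_natCast] at h2
      exact h2
    rw [hn, map_natCast, map_natCast, map_natCast]
  let gA : ResidueField (integralClosure ℤ_[p] E₀) →ₐ[ResidueField ℤ_[p]]
      ResidueField (integralClosure ℤ_[p] E) := { g with commutes' := hgalg }
  haveI : Finite (ResidueField (integralClosure ℤ_[p] E)) :=
    ResidueField.finite_of_finite (R := ℤ_[p]) inferInstance
  haveI : Finite (ResidueField (integralClosure ℤ_[p] E₀)) :=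
    ResidueField.finite_of_finite (R := ℤ_[p]) inferInstance
  exact hE₀.le_of_finrank_residueField_dvd
    (FiniteField.nonempty_algHom_iff_finrank_dvd.mp ⟨gA⟩)

/-- **[E1-d](β), field form.**  `L/ℚ_p` finite Galois with Fontaine's property, `E₀/ℚ_p` finite
unramified, `p` odd: the compositum `L ⊔ E₀` is peu ramifiée. -/
theorem isPeuRamifie_sup_unram (hp2 : p ≠ 2) (L : IntermediateField ℚ_[p] Ω)
    [FiniteDimensional ℚ_[p] L] [IsGalois ℚ_[p] L] (hL : FontaineProp p L)
    {E₀ : IntermediateField ℚ_[p] Ω} (hE₀ : IsUnramifiedIn ℤ_[p] E₀) :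
    IsPeuRamifie p (L ⊔ E₀) := by
  haveI : FiniteDimensional ℚ_[p] E₀ := hE₀.finiteDimensional
  haveI : IsGalois ℚ_[p] E₀ := hE₀.isGalois
  haveI : FiniteDimensional ℚ_[p] (L ⊔ E₀ : IntermediateField ℚ_[p] Ω) :=
    IntermediateField.finiteDimensional_sup L E₀
  haveI : IsGalois ℚ_[p] (L ⊔ E₀ : IntermediateField ℚ_[p] Ω) := inferInstance
  exact Main.isPeuRamifie_of_fontaineProp hp2 _
    (fontaineProp_sup hL (fontaineProp_of_isUnramifiedIn hE₀))

section Elliptic

open WeierstrassCurve WeierstrassCurve.Affine Fermat.Agent.S05 Fermat.Agent.S19.Abs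
  Fermat.Agent.S19.Coord Fermat.Agent.S19.Order Fermat.Agent.S56.Flat Fermat.Agent.S40.E.Main

variable (W : Affine ℚ) (p)

/-- **[E1-d](β), (E-HOPF) form.**  Hypotheses of `S40.E.Main.exists_isPeuRamifie`; conclusion: the
field of points of the Hopf order of `M ⊆ E[p]`, enlarged by ANY finite unramified extension of
`ℚ_p`, is peu ramifiée (the hypothesis `hPeu` of `S40/P/PeuLocal`). -/
theorem exists_isPeuRamifie_sup (hp2 : p ≠ 2) (A : ValuationSubring Qb) (hA : A.LiesOverPrime p)
    (hW : IntegralAt (W⁄Qb) A) (hΔ : (W⁄Qb).Δ ∉ A.nonunits)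
    (M : AddSubgroup (W⁄Qb).Point) (hfin : Finite M)
    (hM : ∀ σ : GQ, ∀ y ∈ M, Stab.actE W σ y ∈ M) (hpM : ∀ y ∈ M, p • y = 0) :
    ∃ Hs : Subalgebra (GaloisRep.ratLocalizedAt p) (M → Qb),
      IsHopfOrder p (actSub W M hM) Hs ∧
        FontaineProp p (PointsField.pointsField p Hs) ∧
        IsPeuRamifie p (PointsField.pointsField p Hs) ∧
        ∀ E₀ : IntermediateField ℚ_[p] Ω, IsUnramifiedIn ℤ_[p] E₀ →
          IsPeuRamifie p (PointsField.pointsField p Hs ⊔ E₀) := by
  obtain ⟨Hs, hHs⟩ := exists_isHopfOrder W p A hA hW hΔ M hfin hM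
  have : Finite M := hfin
  have : FiniteDimensional ℚ_[p] (PointsField.pointsField p Hs) :=
    PointsField.finiteDimensional_pointsField hHs
  have : IsGalois ℚ_[p] (PointsField.pointsField p Hs) := PointsField.isGalois_pointsField hHs
  have hF : FontaineProp p (PointsField.pointsField p Hs) :=
    PointsField.fontaineProp_pointsField (isGalAction_actSub W M hM) hHs fun y =>
      Subtype.ext (by
        rw [AddSubgroup.coe_nsmul, AddSubgroup.coe_zero]
        exact hpM y y.2)
  exact ⟨Hs, hHs, hF, Main.isPeuRamifie_of_fontaineProp hp2 _ hF,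
    fun E₀ hE₀ => isPeuRamifie_sup_unram hp2 _ hF hE₀⟩

end Elliptic

end Fermat.Agent.S40.E.PeuUnram
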