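/-
(E-HOPF) [E3] (helper4; owner of the block: helper28, statements of #2874): **the kernel of
reduction of a Weierstrass curve at a valuation subring, and its compatibility with the Galois
action**.

* `exists_disc_eq`     : `Δ = F_y * R + F_x * Q + F * P` with explicit polynomial cofactors
                         (translation invariance of `Δ` and `Δ ∈ (a₃, a₄, a₆)`), over any ring;
* `y_mem_of_equation`  : an `A`-integral equation and `x ∈ A` force `y ∈ A`;
* `nonsingRed_of_disc` : unit discriminant ⇒ every integral solution has nonsingular reduction;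
* `kerRed`             : the kernel of reduction `{P | Asm.InE1 A P}` as an additive subgroup
                         (`mem_kerRed`, `inE1_neg`, `inE1_sub`);
* `tc_smul`, `wc_smul` : the chart coordinates `t = -x / y`, `w = -1 / y` are Galois-equivariant;
* `inE1_smul`          : the decomposition group preserves the kernel of reduction;
* `inE1_smul_sub`      : **inertia acts trivially on the reduction** (good reduction):
                         `σ • P - P` lies in the kernel of reduction for every point `P`.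
-/
import Mathlib
import Fermat.Prelude.Def_FLTPrelim_Ramification
import Fermat.Agent.S05.KernelGeneral
import Fermat.Agent.S40.E.Defs

set_option autoImplicit false

namespace Fermat.Agent.S40.E.Reduction

open WeierstrassCurve WeierstrassCurve.Affine Fermat.Agent.S05 Fermat.Agent.S40.E.Defs

section Disc

/-- **The discriminant lies in the ideal generated by the equation and its two partial
derivatives** (translation invariance of `Δ` + `Δ ∈ (a₃, a₄, a₆)`), with explicit cofactors. -/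
theorem exists_disc_eq {S : Type*} [CommRing S] (W : Affine S) (x y : S) :
    ∃ R Q P : S, W.Δ = (2 * y + W.a₁ * x + W.a₃) * R +
      (W.a₁ * y - (3 * x ^ 2 + 2 * W.a₂ * x + W.a₄)) * Q +
      (y ^ 2 + W.a₁ * x * y + W.a₃ * y - (x ^ 3 + W.a₂ * x ^ 2 + W.a₄ * x + W.a₆)) * P := by
  set A2 : S := W.a₂ + 3 * x with hA2
  set A3 : S := 2 * y + W.a₁ * x + W.a₃ with hA3
  set A4 : S := 3 * x ^ 2 + 2 * W.a₂ * x + W.a₄ - W.a₁ * y with hA4
  set A6 : S := -(y ^ 2 + W.a₁ * x * y + W.a₃ * y - (x ^ 3 + W.a₂ * x ^ 2 + W.a₄ * x + W.a₆))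
    with hA6
  set B2 : S := W.a₁ ^ 2 + 4 * A2 with hB2
  set B4 : S := 2 * A4 + W.a₁ * A3 with hB4
  set B6 : S := A3 ^ 2 + 4 * A6 with hB6
  refine ⟨-B2 ^ 2 * (-W.a₁ * A4 + A2 * A3) - 8 * B4 ^ 2 * W.a₁ - 27 * B6 * A3 + 9 * B2 * B6 * W.a₁,
    -(B2 ^ 2 * A4 - 16 * B4 ^ 2 + 18 * B2 * B6), -(-B2 ^ 3 - 108 * B6), ?_⟩
  simp only [WeierstrassCurve.Δ, WeierstrassCurve.b₂, WeierstrassCurve.b₄, WeierstrassCurve.b₆,
    WeierstrassCurve.b₈, hA2, hA3, hA4, hA6, hB2, hB4, hB6]
  ring

end Disc

section Integral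
variable {K : Type*} [Field K] (A : ValuationSubring K) {W : Affine K}

/-- integrality of the `y`-coordinate of a solution with integral `x`-coordinate -/
theorem y_mem_of_equation (hW : IntegralAt W A) {x y : K} (h : W.Equation x y) (hx : x ∈ A) :
    y ∈ A := by
  rw [equation_iff] at h
  by_contra hy
  have hy0 : y ≠ 0 := fun h0 => hy (h0 ▸ A.zero_mem)
  have hinv : y⁻¹ ∈ A := (A.mem_or_inv_mem y).resolve_left hy
  apply hy
  have e : y = (x ^ 3 + W.a₂ * x ^ 2 + W.a₄ * x + W.a₆) * y⁻¹ - W.a₁ * x - W.a₃ := by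
    field_simp
    linear_combination h
  rw [e]
  have hc : x ^ 3 + W.a₂ * x ^ 2 + W.a₄ * x + W.a₆ ∈ A :=
    A.add_mem _ _ (A.add_mem _ _ (A.add_mem _ _ (pow_mem hx 3) (A.mul_mem _ _ hW.a₂ (pow_mem hx 2)))
      (A.mul_mem _ _ hW.a₄ hx)) hW.a₆
  exact sub_mem (sub_mem (A.mul_mem _ _ hc hinv) (A.mul_mem _ _ hW.a₁ hx)) hW.a₃

/-- an integral solution of an integral Weierstrass equation with unit discriminant reduces to a
nonsingular point -/
theorem nonsingRed_of_disc (hW : IntegralAt W A) (hΔ : W.Δ ∉ A.nonunits) {x y : K}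
    (h : W.Equation x y) (hx : x ∈ A) : Asm.NonsingRed A W x y := by
  have hy : y ∈ A := y_mem_of_equation A hW h hx
  refine ⟨hx, hy, ?_⟩
  by_contra hcon
  rw [not_or, not_not, not_not, evalEval_polynomialX, evalEval_polynomialY] at hcon
  obtain ⟨h1, h2⟩ := hcon
  apply hΔ
  -- the curve, the point and the identity over the ring `A`
  let WA : Affine A := ⟨⟨W.a₁, hW.a₁⟩, ⟨W.a₂, hW.a₂⟩, ⟨W.a₃, hW.a₃⟩, ⟨W.a₄, hW.a₄⟩, ⟨W.a₆, hW.a₆⟩⟩
  obtain ⟨R, Q, P, hRQP⟩ := exists_disc_eq WA ⟨x, hx⟩ ⟨y, hy⟩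
  have hWmap : W = WA.map A.subtype := by
    ext <;> rfl
  have hΔ' : W.Δ = A.subtype WA.Δ := by
    conv_lhs => rw [hWmap]
    exact WeierstrassCurve.map_Δ _ _
  rw [equation_iff] at h
  have key : W.Δ = (2 * y + W.a₁ * x + W.a₃) * (R : K) +
      (W.a₁ * y - (3 * x ^ 2 + 2 * W.a₂ * x + W.a₄)) * (Q : K) := by
    rw [hΔ', hRQP]
    simp only [map_add, map_mul, map_sub, map_pow, map_ofNat, ValuationSubring.subtype_apply, WA]
    linear_combination (P : K) * h
  rw [key]
  refine A.nonunits.add_mem ?_ ?_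
  · rw [mul_comm]; exact SameRed.mul_mem_nonunits_of_mem A R.2 h2
  · rw [mul_comm]; exact SameRed.mul_mem_nonunits_of_mem A Q.2 h1

end Integral

section General
variable {K : Type*} [Field K] [DecidableEq K] (A : ValuationSubring K) {W : Affine K}

/-- the kernel of reduction as a subgroup -/
def kerRed (hW : IntegralAt W A) : AddSubgroup W.Point where
  carrier := {P | Asm.InE1 A P}
  zero_mem' := Asm.inE1_zero A
  add_mem' := fun {P Q} hP hQ => KernelGeneral.inE1_add A hW P Q hP hQ
  neg_mem' := fun {P} hP => by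
    have hP' : Asm.InE1 A P := hP
    show Asm.InE1 A (-P)
    rw [Asm.inE1_iff_sameRed] at hP' ⊢
    exact SameRed.inE1_neg W A hP'

@[simp] theorem mem_kerRed (hW : IntegralAt W A) {P : W.Point} :
    P ∈ kerRed A hW ↔ Asm.InE1 A P := Iff.rfl

omit [DecidableEq K] in
theorem inE1_neg {P : W.Point} (hP : Asm.InE1 A P) : Asm.InE1 A (-P) := by
  rw [Asm.inE1_iff_sameRed] at hP ⊢
  exact SameRed.inE1_neg W A hP

theorem inE1_sub (hW : IntegralAt W A) {P Q : W.Point} (hP : Asm.InE1 A P)
    (hQ : Asm.InE1 A Q) : Asm.InE1 A (P - Q) :=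
  (kerRed A hW).sub_mem hP hQ

end General

section Galois
variable {F K : Type*} [Field F] [Field K] [DecidableEq K] [Algebra F K]
  (A : ValuationSubring K) {W : Affine F}

theorem tc_smul (σ : K ≃ₐ[F] K) (P : (W⁄K).Point) : tc (σ • P) = σ (tc P) := by
  rcases P with _ | ⟨x, y, h⟩
  · show tc (0 : (W⁄K).Point) = σ (tc (0 : (W⁄K).Point))
    simp
  · rw [Inertia.smul_some σ h, tc_some, tc_some, map_div₀, map_neg]

theorem wc_smul (σ : K ≃ₐ[F] K) (P : (W⁄K).Point) : wc (σ • P) = σ (wc P) := by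
  rcases P with _ | ⟨x, y, h⟩
  · show wc (0 : (W⁄K).Point) = σ (wc (0 : (W⁄K).Point))
    simp
  · rw [Inertia.smul_some σ h, wc_some, wc_some, map_div₀, map_neg, map_one]

theorem inE1_smul {σ : K ≃ₐ[F] K} (hσ : σ ∈ A.decompositionSubgroup F) {P : (W⁄K).Point}
    (hP : Asm.InE1 A P) : Asm.InE1 A (σ • P) := by
  rcases hP with rfl | ⟨x, y, h, rfl, hx⟩
  · exact Or.inl rfl
  · refine Or.inr ⟨σ x, σ y, Inertia.nonsingular_apply σ h, Inertia.smul_some σ h, ?_⟩
    rwa [Inertia.apply_mem_iff_of_mem_decompositionSubgroup A hσ]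

/-- **inertia acts trivially on the reduction**: `σ P - P` lies in the kernel of reduction -/
theorem inE1_smul_sub (hW : IntegralAt (W⁄K) A) (hΔ : (W⁄K).Δ ∉ A.nonunits)
    {σ : K ≃ₐ[F] K} (hσ : σ ∈ A.inertiaSubgroupIn F) (P : (W⁄K).Point) :
    Asm.InE1 A (σ • P - P) := by
  have hσD : σ ∈ A.decompositionSubgroup F :=
    Inertia.mem_decompositionSubgroup_of_mem_inertiaSubgroupIn A hσ
  rcases P with _ | ⟨x, y, h⟩
  · show Asm.InE1 A (σ • (0 : (W⁄K).Point) - 0)
    rw [Inertia.smul_zero_point, sub_zero]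
    exact Asm.inE1_zero A
  · by_cases hx : x ∈ A
    · -- integral point: same nonsingular reduction
      have hy : y ∈ A := y_mem_of_equation A hW h.1 hx
      have hσx : σ x ∈ A := (Inertia.apply_mem_iff_of_mem_decompositionSubgroup A hσD x).mpr hx
      have hns := nonsingRed_of_disc A hW hΔ (Inertia.nonsingular_apply σ h).1 hσx
      rw [Inertia.smul_some σ h, Asm.inE1_iff_sameRed]
      refine SameRed.inE1_sub (W⁄K) A hW.a₁ hW.a₂ hW.a₃ (Inertia.nonsingular_apply σ h) h hσx hx hy
        (Inertia.apply_sub_mem_nonunits_of_mem_inertiaSubgroupIn A hσ hx)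
        (Inertia.apply_sub_mem_nonunits_of_mem_inertiaSubgroupIn A hσ hy) ?_
      rintro ⟨c1, c2⟩
      have h3 := hns.2.2
      rw [evalEval_polynomialX, evalEval_polynomialY] at h3
      rcases h3 with h3 | h3
      · exact h3 c1
      · exact h3 c2
    · -- both `σ P` and `P` lie in the kernel
      have hP : Asm.InE1 A (Point.some x y h) := Or.inr ⟨x, y, h, rfl, hx⟩
      exact inE1_sub A hW (inE1_smul A hσD hP) hP

end Galois

end Fermat.Agent.S40.E.Reduction
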